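/-
EC-TORS library (helper13): counting `p`-torsion points via the division polynomial `preΨ_p`.

Everything here is stated against the interface `TorsionCriterion W`
(`n • (x,y) = 0 ↔ ΨSq_n(x) = 0`), which is the output of `MulFormula`.
-/
import Mathlib

set_option autoImplicit false
set_option linter.unusedSectionVars false

namespace Fermat.Agent.Lib.ECTors.Card

open WeierstrassCurve WeierstrassCurve.Affine Polynomial

variable {K : Type*} [Field K]

/-- The monic quadratic in `y` cutting out the points with a given `x`-coordinate. -/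
noncomputable def yPoly (W : Affine K) (x : K) : K[X] :=
  X ^ 2 + C (W.a₁ * x + W.a₃) * X - C (x ^ 3 + W.a₂ * x ^ 2 + W.a₄ * x + W.a₆)

theorem yPoly_natDegree (W : Affine K) (x : K) : (yPoly W x).natDegree = 2 := by
  unfold yPoly
  compute_degree!

theorem yPoly_ne_zero (W : Affine K) (x : K) : yPoly W x ≠ 0 := by
  intro h
  have := yPoly_natDegree W x
  rw [h] at this
  simp at this

theorem yPoly_eval (W : Affine K) (x y : K) : (yPoly W x).eval y = 0 ↔ W.Equation x y := by
  rw [equation_iff']
  simp only [yPoly, eval_sub, eval_add, eval_pow, eval_X, eval_mul, eval_C]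
  constructor <;> intro h <;> linear_combination h

variable [DecidableEq K]

theorem yPoly_roots_card (W : Affine K) (x : K) : (yPoly W x).roots.toFinset.card ≤ 2 := by
  calc (yPoly W x).roots.toFinset.card ≤ Multiset.card (yPoly W x).roots :=
        Multiset.toFinset_card_le _
    _ ≤ (yPoly W x).natDegree := card_roots' _
    _ = 2 := yPoly_natDegree W x

/-- The interface provided by the multiplication formula: a nonsingular affine point `(x,y)` is
killed by `n` iff `ΨSq_n(x) = 0`. -/
def TorsionCriterion (W : Affine K) : Prop :=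
  ∀ (x y : K) (h : W.Nonsingular x y) (n : ℤ),
    n • Point.some x y h = 0 ↔ (W.ΨSq n).eval x = 0

/-- Affine coordinates of a point (`none` for the point at infinity). -/
def coords (W : Affine K) : W.Point → Option (K × K)
  | .zero => none
  | .some x y _ => some (x, y)

theorem coords_injective (W : Affine K) : Function.Injective (coords W) := by
  intro P Q h
  cases P <;> cases Q <;> simp_all [coords]

/-- For odd `n`, `ΨSq_n = preΨ_n ^ 2`. -/
theorem ΨSq_of_odd (W : Affine K) {n : ℤ} (hn : ¬ Even n) : W.ΨSq n = W.preΨ n ^ 2 := by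
  rw [WeierstrassCurve.ΨSq, if_neg hn, mul_one]

/-- With the torsion criterion: for odd `n`, `n • (x,y) = 0 ↔ preΨ_n(x) = 0`. -/
theorem TorsionCriterion.odd {W : Affine K} (hC : TorsionCriterion W) {n : ℤ} (hn : ¬ Even n)
    {x y : K} (h : W.Nonsingular x y) :
    n • Point.some x y h = 0 ↔ (W.preΨ n).eval x = 0 := by
  rw [hC x y h n, ΨSq_of_odd W hn, eval_pow, pow_eq_zero_iff (two_ne_zero)]

/-- The finite set of candidate coordinates for `p`-torsion points. -/
noncomputable def candidates (W : Affine K) (p : ℕ) : Finset (Option (K × K)) :=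
  insert none (((W.preΨ (p : ℤ)).roots.toFinset.biUnion
    fun x => (yPoly W x).roots.toFinset.image fun y => (x, y)).image some)

theorem card_candidates_le (W : Affine K) (p : ℕ) :
    (candidates W p).card ≤ 2 * (W.preΨ (p : ℤ)).natDegree + 1 := by
  unfold candidates
  refine (Finset.card_insert_le _ _).trans ?_
  refine Nat.add_le_add_right ?_ 1
  refine Finset.card_image_le.trans ?_
  refine Finset.card_biUnion_le.trans ?_
  calc ∑ x ∈ (W.preΨ (p : ℤ)).roots.toFinset,
        ((yPoly W x).roots.toFinset.image fun y => (x, y)).card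
      ≤ ∑ _x ∈ (W.preΨ (p : ℤ)).roots.toFinset, 2 :=
        Finset.sum_le_sum fun x _ => Finset.card_image_le.trans (yPoly_roots_card W x)
    _ = (W.preΨ (p : ℤ)).roots.toFinset.card * 2 := by rw [Finset.sum_const, smul_eq_mul]
    _ ≤ Multiset.card (W.preΨ (p : ℤ)).roots * 2 :=
        Nat.mul_le_mul_right _ (Multiset.toFinset_card_le _)
    _ ≤ (W.preΨ (p : ℤ)).natDegree * 2 := Nat.mul_le_mul_right _ (card_roots' _)
    _ = 2 * (W.preΨ (p : ℤ)).natDegree := Nat.mul_comm _ _

theorem not_even_cast_of_odd {p : ℕ} (hodd : ¬ Even p) : ¬ Even (p : ℤ) := by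
  rwa [Int.even_coe_nat]

theorem natDegree_preΨ_of_odd (W : Affine K) {p : ℕ} (hodd : ¬ Even p) (hpK : (p : K) ≠ 0) :
    (W.preΨ (p : ℤ)).natDegree = (p ^ 2 - 1) / 2 := by
  rw [W.natDegree_preΨ (by exact_mod_cast hpK), if_neg (not_even_cast_of_odd hodd),
    Int.natAbs_natCast]

theorem coords_mem_candidates {W : Affine K} (hC : TorsionCriterion W) {p : ℕ} (hodd : ¬ Even p)
    (hpK : (p : K) ≠ 0) {P : W.Point} (hP : (p : ℤ) • P = 0) :
    coords W P ∈ candidates W p := by
  unfold candidates
  cases P with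
  | zero => exact Finset.mem_insert_self _ _
  | some x y h =>
    refine Finset.mem_insert_of_mem (Finset.mem_image.mpr ⟨(x, y), ?_, rfl⟩)
    refine Finset.mem_biUnion.mpr ⟨x, ?_, Finset.mem_image.mpr ⟨y, ?_, rfl⟩⟩
    · rw [Multiset.mem_toFinset, mem_roots (W.preΨ_ne_zero (by exact_mod_cast hpK))]
      exact (hC.odd (not_even_cast_of_odd hodd) h).mp hP
    · rw [Multiset.mem_toFinset, mem_roots (yPoly_ne_zero W x)]
      exact (yPoly_eval W x y).mpr h.1

/-- (D1) The `p`-torsion is finite. -/
theorem finite_torsionBy {W : Affine K} (hC : TorsionCriterion W) {p : ℕ} (hodd : ¬ Even p)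
    (hpK : (p : K) ≠ 0) : Finite (Submodule.torsionBy ℤ W.Point (p : ℤ)) := by
  have hfin : ((Submodule.torsionBy ℤ W.Point (p : ℤ) : Submodule ℤ W.Point) :
      Set W.Point).Finite := by
    refine Set.Finite.of_injOn (f := coords W) (t := (candidates W p : Set _)) ?_
      ((coords_injective W).injOn) (Finset.finite_toSet _)
    intro P hP
    exact coords_mem_candidates hC hodd hpK ((Submodule.mem_torsionBy_iff _ _).mp hP)
  exact hfin.to_subtype

/-- (D1) The `p`-torsion has at most `p ^ 2` elements. -/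
theorem card_torsionBy_le {W : Affine K} (hC : TorsionCriterion W) {p : ℕ} (hodd : ¬ Even p)
    (hpK : (p : K) ≠ 0) : Nat.card (Submodule.torsionBy ℤ W.Point (p : ℤ)) ≤ p ^ 2 := by
  have hle : ((Submodule.torsionBy ℤ W.Point (p : ℤ) : Submodule ℤ W.Point) :
      Set W.Point).ncard ≤ (↑(candidates W p) : Set (Option (K × K))).ncard := by
    refine Set.ncard_le_ncard_of_injOn (coords W) ?_ ((coords_injective W).injOn)
      (Finset.finite_toSet _)
    intro P hP
    exact coords_mem_candidates hC hodd hpK ((Submodule.mem_torsionBy_iff _ _).mp hP)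
  rw [Set.ncard_coe_finset] at hle
  have h1 := card_candidates_le W p
  rw [natDegree_preΨ_of_odd W hodd hpK] at h1
  have hp1 : 1 ≤ p ^ 2 := Nat.one_le_pow _ _ (Nat.pos_of_ne_zero (by rintro rfl; simp at hodd))
  have h2 : 2 * ((p ^ 2 - 1) / 2) ≤ p ^ 2 - 1 := Nat.mul_div_le _ _
  calc Nat.card (Submodule.torsionBy ℤ W.Point (p : ℤ))
      = ((Submodule.torsionBy ℤ W.Point (p : ℤ) : Submodule ℤ W.Point) : Set W.Point).ncard :=
        (Nat.card_coe_set_eq _)
    _ ≤ (candidates W p).card := hle
    _ ≤ p ^ 2 := by omega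

/-- (D2) Over an algebraically closed field, a nonsingular curve has a nonzero `p`-torsion
point. -/
theorem exists_torsion_point [IsAlgClosed K] {W : Affine K} (hC : TorsionCriterion W)
    (hΔ : W.Δ ≠ 0) {p : ℕ} (hodd : ¬ Even p) (hp3 : 3 ≤ p) (hpK : (p : K) ≠ 0) :
    ∃ P : W.Point, P ≠ 0 ∧ (p : ℤ) • P = 0 := by
  have hdeg : (W.preΨ (p : ℤ)).degree ≠ 0 := by
    have hnd := natDegree_preΨ_of_odd W hodd hpK
    have hpos : 0 < (W.preΨ (p : ℤ)).natDegree := by
      rw [hnd]
      have : 9 ≤ p ^ 2 := by nlinarith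
      omega
    intro h0
    have := natDegree_eq_zero_iff_degree_le_zero.mpr h0.le
    omega
  obtain ⟨x, hx⟩ := IsAlgClosed.exists_root _ hdeg
  have hdeg2 : (yPoly W x).degree ≠ 0 := by
    intro h0
    have := natDegree_eq_zero_iff_degree_le_zero.mpr h0.le
    rw [yPoly_natDegree] at this
    omega
  obtain ⟨y, hy⟩ := IsAlgClosed.exists_root _ hdeg2
  have heq : W.Equation x y := (yPoly_eval W x y).mp hy
  have hns : W.Nonsingular x y := (W.equation_iff_nonsingular_of_Δ_ne_zero hΔ).mp heq
  refine ⟨Point.some x y hns, Point.some_ne_zero hns, ?_⟩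
  exact (hC.odd (not_even_cast_of_odd hodd) hns).mpr hx

/-- (D2) Over an algebraically closed field, the `p`-torsion of a nonsingular curve is
nontrivial. -/
theorem nontrivial_torsionBy [IsAlgClosed K] {W : Affine K} (hC : TorsionCriterion W)
    (hΔ : W.Δ ≠ 0) {p : ℕ} (hodd : ¬ Even p) (hp3 : 3 ≤ p) (hpK : (p : K) ≠ 0) :
    Nontrivial (Submodule.torsionBy ℤ W.Point (p : ℤ)) := by
  obtain ⟨P, hP0, hP⟩ := exists_torsion_point hC hΔ hodd hp3 hpK
  refine ⟨⟨⟨P, (Submodule.mem_torsionBy_iff _ _).mpr hP⟩, 0, ?_⟩⟩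
  intro h
  exact hP0 (congrArg Subtype.val h)

/-! ### The factorisation of `preΨ_p` when the `p`-torsion is full -/

/-- The finite set of `x`-coordinates of nonzero `p`-torsion points (inside the roots of
`preΨ_p`). -/
noncomputable def torsionXs (W : Affine K) (p : ℕ) : Finset K :=
  open Classical in
  (W.preΨ (p : ℤ)).roots.toFinset.filter
    fun x => ∃ (y : K) (h : W.Nonsingular x y), (p : ℤ) • Point.some x y h = 0

theorem mem_torsionXs {W : Affine K} (hC : TorsionCriterion W) {p : ℕ} (hodd : ¬ Even p)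
    (hpK : (p : K) ≠ 0) (x : K) :
    x ∈ torsionXs W p ↔ ∃ (y : K) (h : W.Nonsingular x y), (p : ℤ) • Point.some x y h = 0 := by
  classical
  unfold torsionXs
  rw [Finset.mem_filter]
  refine ⟨fun h => h.2, fun h => ⟨?_, h⟩⟩
  obtain ⟨y, hns, hP⟩ := h
  rw [Multiset.mem_toFinset, mem_roots (W.preΨ_ne_zero (by exact_mod_cast hpK))]
  exact (hC.odd (not_even_cast_of_odd hodd) hns).mp hP

/-- Refined candidate set: only `x`-coordinates that really occur. -/
noncomputable def candidates' (W : Affine K) (p : ℕ) : Finset (Option (K × K)) :=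
  insert none (((torsionXs W p).biUnion
    fun x => (yPoly W x).roots.toFinset.image fun y => (x, y)).image some)

theorem card_candidates'_le (W : Affine K) (p : ℕ) :
    (candidates' W p).card ≤ 2 * (torsionXs W p).card + 1 := by
  unfold candidates'
  refine (Finset.card_insert_le _ _).trans ?_
  refine Nat.add_le_add_right ?_ 1
  refine Finset.card_image_le.trans ?_
  refine Finset.card_biUnion_le.trans ?_
  calc ∑ x ∈ torsionXs W p, ((yPoly W x).roots.toFinset.image fun y => (x, y)).card
      ≤ ∑ _x ∈ torsionXs W p, 2 :=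
        Finset.sum_le_sum fun x _ => Finset.card_image_le.trans (yPoly_roots_card W x)
    _ = (torsionXs W p).card * 2 := by rw [Finset.sum_const, smul_eq_mul]
    _ = 2 * (torsionXs W p).card := Nat.mul_comm _ _

theorem coords_mem_candidates' {W : Affine K} (hC : TorsionCriterion W) {p : ℕ}
    (hodd : ¬ Even p) (hpK : (p : K) ≠ 0) {P : W.Point} (hP : (p : ℤ) • P = 0) :
    coords W P ∈ candidates' W p := by
  unfold candidates'
  cases P with
  | zero => exact Finset.mem_insert_self _ _
  | some x y h =>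
    refine Finset.mem_insert_of_mem (Finset.mem_image.mpr ⟨(x, y), ?_, rfl⟩)
    refine Finset.mem_biUnion.mpr ⟨x, ?_, Finset.mem_image.mpr ⟨y, ?_, rfl⟩⟩
    · exact (mem_torsionXs hC hodd hpK x).mpr ⟨y, h, hP⟩
    · rw [Multiset.mem_toFinset, mem_roots (yPoly_ne_zero W x)]
      exact (yPoly_eval W x y).mpr h.1

theorem torsionXs_card_le (W : Affine K) {p : ℕ} (hodd : ¬ Even p) (hpK : (p : K) ≠ 0) :
    (torsionXs W p).card ≤ (p ^ 2 - 1) / 2 := by
  classical
  calc (torsionXs W p).card ≤ (W.preΨ (p : ℤ)).roots.toFinset.card := by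
        unfold torsionXs
        exact Finset.card_filter_le _ _
    _ ≤ Multiset.card (W.preΨ (p : ℤ)).roots := Multiset.toFinset_card_le _
    _ ≤ (W.preΨ (p : ℤ)).natDegree := card_roots' _
    _ = (p ^ 2 - 1) / 2 := natDegree_preΨ_of_odd W hodd hpK

/-- (D3) If the `p`-torsion has exactly `p ^ 2` elements, then `preΨ_p` is `p` times the product
of the `X - x` over the `x`-coordinates of the nonzero `p`-torsion points, each occurring once. -/
theorem preΨ_eq_prod {W : Affine K} (hC : TorsionCriterion W) {p : ℕ} (hodd : ¬ Even p)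
    (hpK : (p : K) ≠ 0) (hcard : Nat.card (Submodule.torsionBy ℤ W.Point (p : ℤ)) = p ^ 2) :
    (torsionXs W p).card = (p ^ 2 - 1) / 2 ∧
      W.preΨ (p : ℤ) = C (p : K) * ∏ x ∈ torsionXs W p, (X - C x) := by
  classical
  -- counting
  have hle : ((Submodule.torsionBy ℤ W.Point (p : ℤ) : Submodule ℤ W.Point) :
      Set W.Point).ncard ≤ (↑(candidates' W p) : Set (Option (K × K))).ncard := by
    refine Set.ncard_le_ncard_of_injOn (coords W) ?_ ((coords_injective W).injOn)
      (Finset.finite_toSet _)
    intro P hP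
    exact coords_mem_candidates' hC hodd hpK ((Submodule.mem_torsionBy_iff _ _).mp hP)
  rw [Set.ncard_coe_finset, ← Nat.card_coe_set_eq] at hle
  have hle' : p ^ 2 ≤ (candidates' W p).card := by
    rw [← hcard]; exact hle
  have h1 := card_candidates'_le W p
  have h2 := torsionXs_card_le W hodd hpK
  have hoddsq : (p ^ 2) % 2 = 1 := by
    have : Odd (p ^ 2) := (Nat.not_even_iff_odd.mp hodd).pow
    exact Nat.odd_iff.mp this
  have hcardX : (torsionXs W p).card = (p ^ 2 - 1) / 2 := by omega
  refine ⟨hcardX, ?_⟩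
  -- all roots are simple and are exactly `torsionXs`
  have hsub : torsionXs W p ⊆ (W.preΨ (p : ℤ)).roots.toFinset := by
    unfold torsionXs
    exact Finset.filter_subset _ _
  have hnd := natDegree_preΨ_of_odd W hodd hpK
  have h3 : (W.preΨ (p : ℤ)).roots.toFinset.card ≤ Multiset.card (W.preΨ (p : ℤ)).roots :=
    Multiset.toFinset_card_le _
  have h4 : Multiset.card (W.preΨ (p : ℤ)).roots ≤ (W.preΨ (p : ℤ)).natDegree := card_roots' _
  have h5 : (torsionXs W p).card ≤ (W.preΨ (p : ℤ)).roots.toFinset.card :=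
    Finset.card_le_card hsub
  have heqfin : torsionXs W p = (W.preΨ (p : ℤ)).roots.toFinset :=
    Finset.eq_of_subset_of_card_le hsub (by omega)
  have hcardroots : Multiset.card (W.preΨ (p : ℤ)).roots = (W.preΨ (p : ℤ)).natDegree := by
    omega
  have hnodup : (W.preΨ (p : ℤ)).roots.Nodup := by
    rw [← Multiset.toFinset_card_eq_card_iff_nodup]
    omega
  have hlc : (W.preΨ (p : ℤ)).leadingCoeff = (p : K) := by
    rw [W.leadingCoeff_preΨ (by exact_mod_cast hpK), if_neg (not_even_cast_of_odd hodd)]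
    simp
  have hfac := C_leadingCoeff_mul_prod_multiset_X_sub_C hcardroots
  rw [hlc] at hfac
  rw [heqfin, Finset.prod, Multiset.toFinset_val, Multiset.dedup_eq_self.mpr hnodup]
  exact hfac.symm

/-! ### Abstract two-dimensional glue -/

section Glue

variable {p : ℕ} [Fact p.Prime] {V : Type*} [AddCommGroup V] [Module (ZMod p) V]

/-- A proper nonzero subspace of an `𝔽_p`-vector space with at most `p²` elements is a line, and
the whole space is a plane. -/
theorem card_of_proper_submodule [Finite V] (hV : Nat.card V ≤ p ^ 2)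
    (N : Submodule (ZMod p) V) (hbot : N ≠ ⊥) (htop : N ≠ ⊤) :
    Nat.card N = p ∧ Nat.card V = p ^ 2 ∧ Module.finrank (ZMod p) N = 1 ∧
      Module.finrank (ZMod p) V = 2 := by
  have hp : p.Prime := Fact.out
  have hcV : Nat.card V = p ^ Module.finrank (ZMod p) V := by
    have := Module.natCard_eq_pow_finrank (K := ZMod p) (V := V)
    rwa [Nat.card_zmod] at this
  have hcN : Nat.card N = p ^ Module.finrank (ZMod p) N := by
    have := Module.natCard_eq_pow_finrank (K := ZMod p) (V := N)
    rwa [Nat.card_zmod] at this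
  have hlt : Module.finrank (ZMod p) N < Module.finrank (ZMod p) V :=
    Submodule.finrank_lt htop
  have hpos : 0 < Module.finrank (ZMod p) N := by
    rw [Module.finrank_pos_iff]
    exact (Submodule.nontrivial_iff_ne_bot).mpr hbot
  have hV2 : Module.finrank (ZMod p) V ≤ 2 := by
    rw [hcV] at hV
    exact (Nat.pow_le_pow_iff_right hp.one_lt).mp hV
  have hN1 : Module.finrank (ZMod p) N = 1 := by omega
  have hV2' : Module.finrank (ZMod p) V = 2 := by omega
  refine ⟨by rw [hcN, hN1, pow_one], by rw [hcV, hV2'], hN1, hV2'⟩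

/-- Every nonzero vector of a line spans it. -/
theorem exists_smul_eq_of_mem [Finite V] (hV : Nat.card V ≤ p ^ 2)
    (N : Submodule (ZMod p) V) (hbot : N ≠ ⊥) (htop : N ≠ ⊤) {x : V} (hx : x ∈ N) (hx0 : x ≠ 0)
    {y : V} (hy : y ∈ N) : ∃ k : ZMod p, y = k • x := by
  obtain ⟨-, -, hN1, -⟩ := card_of_proper_submodule hV N hbot htop
  have hspan : Submodule.span (ZMod p) {x} = N := by
    refine Submodule.eq_of_le_of_finrank_eq ((Submodule.span_singleton_le_iff_mem x N).mpr hx) ?_
    rw [hN1, finrank_span_singleton hx0]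
  rw [← hspan] at hy
  obtain ⟨k, hk⟩ := Submodule.mem_span_singleton.mp hy
  exact ⟨k, hk.symm⟩

/-- Modulo a line in a plane, every vector is a multiple of any vector outside the line. -/
theorem exists_smul_sub_mem [Finite V] (hV : Nat.card V ≤ p ^ 2)
    (N : Submodule (ZMod p) V) (hbot : N ≠ ⊥) (htop : N ≠ ⊤) {x : V} (hx : x ∉ N) (y : V) :
    ∃ k : ZMod p, y - k • x ∈ N := by
  obtain ⟨-, -, hN1, hV2⟩ := card_of_proper_submodule hV N hbot htop
  have hlt : N < N ⊔ Submodule.span (ZMod p) {x} := by
    refine lt_of_le_of_ne le_sup_left ?_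
    intro h
    apply hx
    rw [h]
    exact Submodule.mem_sup_right (Submodule.mem_span_singleton_self x)
  have hfr : Module.finrank (ZMod p) N <
      Module.finrank (ZMod p) ↥(N ⊔ Submodule.span (ZMod p) {x}) := Submodule.finrank_lt_finrank_of_lt hlt
  have htop' : N ⊔ Submodule.span (ZMod p) {x} = ⊤ := by
    apply Submodule.eq_top_of_finrank_eq
    have := Submodule.finrank_le (N ⊔ Submodule.span (ZMod p) {x})
    omega
  have hy : y ∈ N ⊔ Submodule.span (ZMod p) {x} := by rw [htop']; trivial
  obtain ⟨n, hn, z, hz, rfl⟩ := Submodule.mem_sup.mp hy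
  obtain ⟨k, rfl⟩ := Submodule.mem_span_singleton.mp hz
  exact ⟨k, by simpa using hn⟩

end Glue

end Fermat.Agent.Lib.ECTors.Card
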