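/-
EC-TORS (A): the canonical normalised elliptic divisibility sequence `normEDS b c d`
satisfies the elliptic-sequence relation
  `W(m+n) W(m-n) = W(m+1) W(m-1) W(n)^2 - W(n+1) W(n-1) W(m)^2`   for all integers `m n`.
Proof: strong induction on `m + n` using the Pluecker relation for the 2x2 minors of the
matrix with rows `(W(k+1) W(k-1), W(k)^2)`.
-/
import Mathlib.NumberTheory.EllipticDivisibilitySequence
import Mathlib.Algebra.MvPolynomial.CommRing
import Mathlib.Algebra.MvPolynomial.Polynomial
import Mathlib.RingTheory.Polynomial.Basic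
import Mathlib.Tactic

set_option autoImplicit false

namespace Fermat.Agent.Lib.ECTors

section Abstract

variable {R : Type*} [CommRing R]

/-- The elliptic-sequence relation at `(m, n)`. -/
def Net (W : ℤ → R) (m n : ℤ) : Prop :=
  W (m + n) * W (m - n) = W (m + 1) * W (m - 1) * W n ^ 2 - W (n + 1) * W (n - 1) * W m ^ 2

variable {W : ℤ → R}

theorem Net.swap (hneg : ∀ n, W (-n) = -W n) {m n : ℤ} (h : Net W m n) : Net W n m := by
  unfold Net at *
  rw [show n + m = m + n by ring, show n - m = -(m - n) by ring, hneg]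
  linear_combination -h

theorem Net.neg_right (hneg : ∀ n, W (-n) = -W n) {m n : ℤ} (h : Net W m n) : Net W m (-n) := by
  unfold Net at *
  rw [show m + -n = m - n by ring, show m - -n = m + n by ring, hneg,
    show -n + 1 = -(n - 1) by ring, show -n - 1 = -(n + 1) by ring, hneg, hneg]
  linear_combination h

theorem Net.neg_left (hneg : ∀ n, W (-n) = -W n) {m n : ℤ} (h : Net W m n) : Net W (-m) n := by
  unfold Net at *
  rw [show -m + n = -(m - n) by ring, show -m - n = -(m + n) by ring, hneg, hneg,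
    show -m + 1 = -(m - 1) by ring, show -m - 1 = -(m + 1) by ring, hneg, hneg, hneg]
  linear_combination h

theorem net_zero_right (hneg : ∀ n, W (-n) = -W n) (h0 : W 0 = 0) (h1 : W 1 = 1) (m : ℤ) :
    Net W m 0 := by
  unfold Net
  rw [show m + 0 = m by ring, show m - 0 = m by ring, show (0 : ℤ) + 1 = 1 by ring,
    show (0 : ℤ) - 1 = -1 by ring, hneg, h0, h1]
  ring

theorem net_one_right (h0 : W 0 = 0) (h1 : W 1 = 1) (m : ℤ) : Net W m 1 := by
  unfold Net
  rw [show (1 : ℤ) - 1 = 0 by ring, h0, h1]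
  ring

theorem net_self (h0 : W 0 = 0) (m : ℤ) : Net W m m := by
  unfold Net
  rw [show m - m = 0 by ring, h0]
  ring

theorem net_succ (h1 : W 1 = 1)
    (hodd : ∀ m, W (2 * m + 1) = W (m + 2) * W m ^ 3 - W (m - 1) * W (m + 1) ^ 3) (n : ℤ) :
    Net W (n + 1) n := by
  unfold Net
  rw [show n + 1 + n = 2 * n + 1 by ring, show n + 1 - n = 1 by ring, h1,
    show n + 1 + 1 = n + 2 by ring, show n + 1 - 1 = n by ring, hodd n]
  ring

theorem net_succ_succ
    (heven : ∀ m, W (2 * m) * W 2 =
      W (m - 1) ^ 2 * W m * W (m + 2) - W (m - 2) * W m * W (m + 1) ^ 2) (n : ℤ) :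
    Net W (n + 2) n := by
  unfold Net
  have h := heven (n + 1)
  rw [show n + 1 - 1 = n by ring, show n + 1 + 2 = n + 3 by ring, show n + 1 - 2 = n - 1 by ring,
    show n + 1 + 1 = n + 2 by ring] at h
  rw [show n + 2 + n = 2 * (n + 1) by ring, show n + 2 - n = 2 by ring,
    show n + 2 + 1 = n + 3 by ring, show n + 2 - 1 = n + 1 by ring]
  linear_combination h

/-- Pluecker step, odd total index. -/
theorem net_odd_step
    (hodd : ∀ m, W (2 * m + 1) = W (m + 2) * W m ^ 3 - W (m - 1) * W (m + 1) ^ 3)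
    (k l : ℤ) (h1 : Net W (k + 1) (l + 1)) (h2 : Net W k l) (h3 : Net W (k + 1) l)
    (h4 : Net W k (l + 1)) : Net W (k + l + 1) (k - l) := by
  unfold Net at *
  have ok := hodd k
  have ol := hodd l
  rw [show k + 1 + (l + 1) = k + l + 2 by ring, show k + 1 - (l + 1) = k - l by ring,
    show k + 1 + 1 = k + 2 by ring, show k + 1 - 1 = k by ring,
    show l + 1 + 1 = l + 2 by ring, show l + 1 - 1 = l by ring] at h1
  rw [show k + 1 + l = k + l + 1 by ring, show k + 1 - l = k - l + 1 by ring,
    show k + 1 + 1 = k + 2 by ring, show k + 1 - 1 = k by ring] at h3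
  rw [show k + (l + 1) = k + l + 1 by ring, show k - (l + 1) = k - l - 1 by ring,
    show l + 1 + 1 = l + 2 by ring, show l + 1 - 1 = l by ring] at h4
  rw [show k + l + 1 + (k - l) = 2 * k + 1 by ring, show k + l + 1 - (k - l) = 2 * l + 1 by ring,
    show k + l + 1 + 1 = k + l + 2 by ring, show k + l + 1 - 1 = k + l by ring]
  linear_combination W (2 * l + 1) * ok + (W (k + 2) * W k ^ 3 - W (k - 1) * W (k + 1) ^ 3) * ol
    - (W (k + l) * W (k - l)) * h1
    - (W (k + 2) * W k * W (l + 1) ^ 2 - W (l + 2) * W l * W (k + 1) ^ 2) * h2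
    + (W (k + l + 1) * W (k - l - 1)) * h3
    + (W (k + 2) * W k * W l ^ 2 - W (l + 1) * W (l - 1) * W (k + 1) ^ 2) * h4

/-- Pluecker step, even total index: the conclusion multiplied by `W 2 ^ 2`. -/
theorem net_even_step_mul
    (heven : ∀ m, W (2 * m) * W 2 =
      W (m - 1) ^ 2 * W m * W (m + 2) - W (m - 2) * W m * W (m + 1) ^ 2)
    (k l : ℤ) (h1 : Net W (k + 1) (l + 1)) (h2 : Net W (k - 1) (l - 1))
    (h3 : Net W (k + 1) (l - 1)) (h4 : Net W (k - 1) (l + 1))
    (hm : Net W (k + l) 2) (hn : Net W (k - l) 2) :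
    W 2 ^ 2 * (W (k + l + (k - l)) * W (k + l - (k - l))) =
      W 2 ^ 2 * (W (k + l + 1) * W (k + l - 1) * W (k - l) ^ 2 -
        W (k - l + 1) * W (k - l - 1) * W (k + l) ^ 2) := by
  unfold Net at *
  have ek := heven k
  have el := heven l
  rw [show k + 1 + (l + 1) = k + l + 2 by ring, show k + 1 - (l + 1) = k - l by ring,
    show k + 1 + 1 = k + 2 by ring, show k + 1 - 1 = k by ring,
    show l + 1 + 1 = l + 2 by ring, show l + 1 - 1 = l by ring] at h1
  rw [show k - 1 + (l - 1) = k + l - 2 by ring, show k - 1 - (l - 1) = k - l by ring,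
    show k - 1 + 1 = k by ring, show k - 1 - 1 = k - 2 by ring,
    show l - 1 + 1 = l by ring, show l - 1 - 1 = l - 2 by ring] at h2
  rw [show k + 1 + (l - 1) = k + l by ring, show k + 1 - (l - 1) = k - l + 2 by ring,
    show k + 1 + 1 = k + 2 by ring, show k + 1 - 1 = k by ring,
    show l - 1 + 1 = l by ring, show l - 1 - 1 = l - 2 by ring] at h3
  rw [show k - 1 + (l + 1) = k + l by ring, show k - 1 - (l + 1) = k - l - 2 by ring,
    show k - 1 + 1 = k by ring, show k - 1 - 1 = k - 2 by ring,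
    show l + 1 + 1 = l + 2 by ring, show l + 1 - 1 = l by ring] at h4
  rw [show (2 : ℤ) + 1 = 3 by ring, show (2 : ℤ) - 1 = 1 by ring] at hm hn
  rw [show k + l + (k - l) = 2 * k by ring, show k + l - (k - l) = 2 * l by ring]
  linear_combination (W (2 * l) * W 2) * ek
    + (W (k - 1) ^ 2 * W k * W (k + 2) - W (k - 2) * W k * W (k + 1) ^ 2) * el
    - (W (k + l - 2) * W (k - l)) * h1
    - (W (k + 2) * W k * W (l + 1) ^ 2 - W (l + 2) * W l * W (k + 1) ^ 2) * h2
    + (W (k + l) * W (k - l - 2)) * h3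
    + (W (k + 2) * W k * W (l - 1) ^ 2 - W l * W (l - 2) * W (k + 1) ^ 2) * h4
    + W (k - l) ^ 2 * hm - W (k + l) ^ 2 * hn

/-- Somos-4 step for even index: the conclusion multiplied by `W 4 * W 2`. -/
theorem net_somos_even_step_mul (hneg : ∀ n, W (-n) = -W n) (h1 : W 1 = 1)
    (hodd : ∀ m, W (2 * m + 1) = W (m + 2) * W m ^ 3 - W (m - 1) * W (m + 1) ^ 3)
    (heven : ∀ m, W (2 * m) * W 2 =
      W (m - 1) ^ 2 * W m * W (m + 2) - W (m - 2) * W m * W (m + 1) ^ 2)
    (j : ℤ) (hcd : Net W (j + 1) (j - 3)) (hbd : Net W j (j - 3)) (had : Net W (j + 2) (j - 3))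
    (h3 : Net W (2 * j) 3) :
    W 4 * W 2 * (W (2 * j + 2) * W (2 * j - 2)) =
      W 4 * W 2 * (W (2 * j + 1) * W (2 * j - 1) * W 2 ^ 2 - W 3 * W 1 * W (2 * j) ^ 2) := by
  have hab := net_succ_succ heven j
  have hac := net_succ h1 hodd (j + 1)
  have hbc := (net_succ h1 hodd j).swap hneg
  have h5 := hodd 2
  unfold Net at *
  rw [show j + 2 + j = 2 * j + 2 by ring, show j + 2 - j = 2 by ring,
    show j + 2 + 1 = j + 3 by ring, show j + 2 - 1 = j + 1 by ring] at hab
  rw [show j + 1 + (j - 3) = 2 * j - 2 by ring, show j + 1 - (j - 3) = 4 by ring,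
    show j + 1 + 1 = j + 2 by ring, show j + 1 - 1 = j by ring,
    show j - 3 + 1 = j - 2 by ring, show j - 3 - 1 = j - 4 by ring] at hcd
  rw [show j + 1 + 1 + (j + 1) = 2 * j + 3 by ring, show j + 1 + 1 - (j + 1) = 1 by ring,
    show j + 1 + 1 + 1 = j + 3 by ring, show j + 1 + 1 - 1 = j + 1 by ring,
    show j + 1 + 1 = j + 2 by ring, show j + 1 - 1 = j by ring] at hac
  rw [show j + (j - 3) = 2 * j - 3 by ring, show j - (j - 3) = 3 by ring,
    show j - 3 + 1 = j - 2 by ring, show j - 3 - 1 = j - 4 by ring] at hbd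
  rw [show j + 2 + (j - 3) = 2 * j - 1 by ring, show j + 2 - (j - 3) = 5 by ring,
    show j + 2 + 1 = j + 3 by ring, show j + 2 - 1 = j + 1 by ring,
    show j - 3 + 1 = j - 2 by ring, show j - 3 - 1 = j - 4 by ring] at had
  rw [show j + (j + 1) = 2 * j + 1 by ring, show j - (j + 1) = -1 by ring, hneg, h1,
    show j + 1 + 1 = j + 2 by ring, show j + 1 - 1 = j by ring] at hbc
  rw [show 2 * j + 3 = 2 * j + 3 by ring, show (3 : ℤ) + 1 = 4 by ring,
    show (3 : ℤ) - 1 = 2 by ring] at h3
  rw [show (2 : ℤ) * 2 + 1 = 5 by ring, show (2 : ℤ) + 2 = 4 by ring,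
    show (2 : ℤ) - 1 = 1 by ring, show (2 : ℤ) + 1 = 3 by ring, h1] at h5
  rw [h1] at hac ⊢
  linear_combination (W (2 * j - 2) * W 4) * hab
    + (W (j + 3) * W (j + 1) * W j ^ 2 - W (j + 1) * W (j - 1) * W (j + 2) ^ 2) * hcd
    - (W (2 * j - 3) * W 3) * hac
    - (W (j + 3) * W (j + 1) * W (j + 1) ^ 2 - W (j + 2) * W j * W (j + 2) ^ 2) * hbd
    + (W (2 * j + 1) * (-1)) * had
    + (W (j + 3) * W (j + 1) * W (j - 3) ^ 2 - W (j - 2) * W (j - 4) * W (j + 2) ^ 2) * hbc
    + W 3 * h3 + (W (2 * j - 1) * W (2 * j + 1)) * h5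

/-- The elliptic-sequence relation for nonnegative indices, by strong induction on `m + n`. -/
theorem net_of_nonneg (hneg : ∀ n, W (-n) = -W n) (h0 : W 0 = 0) (h1 : W 1 = 1)
    (hodd : ∀ m, W (2 * m + 1) = W (m + 2) * W m ^ 3 - W (m - 1) * W (m + 1) ^ 3)
    (heven : ∀ m, W (2 * m) * W 2 =
      W (m - 1) ^ 2 * W m * W (m + 2) - W (m - 2) * W m * W (m + 1) ^ 2)
    (hc2 : ∀ x y : R, W 2 ^ 2 * x = W 2 ^ 2 * y → x = y)
    (hc4 : ∀ x y : R, W 4 * W 2 * x = W 4 * W 2 * y → x = y) :
    ∀ (N : ℕ) (m n : ℤ), 0 ≤ m → 0 ≤ n → m + n ≤ N → Net W m n := by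
  intro N
  induction N using Nat.strong_induction_on with
  | _ N ih =>
    have ih' : ∀ m n : ℤ, 0 ≤ m → 0 ≤ n → m + n < N → Net W m n := by
      intro m n hm hn hlt
      have hlt' : (m + n).toNat < N := by omega
      exact ih (m + n).toNat hlt' m n hm hn (by omega)
    have core : ∀ m n : ℤ, 0 ≤ n → n ≤ m → m + n ≤ N → Net W m n := by
      intro m n hn hnm hle
      rcases lt_or_eq_of_le hle with hlt | heq
      · exact ih' m n (by omega) hn hlt
      by_cases hn0 : n = 0
      · subst hn0; exact net_zero_right hneg h0 h1 m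
      by_cases hn1 : n = 1
      · subst hn1; exact net_one_right h0 h1 m
      by_cases hmn : m = n
      · subst hmn; exact net_self h0 m
      by_cases hmn1 : m = n + 1
      · subst hmn1; exact net_succ h1 hodd n
      by_cases hmn2 : m = n + 2
      · subst hmn2; exact net_succ_succ heven n
      have hn2 : 2 ≤ n := by omega
      have hm3 : n + 3 ≤ m := by omega
      rcases Int.even_or_odd' (m + n) with ⟨k, hk | hk⟩
      · -- even total index
        obtain ⟨l, hl⟩ : ∃ l, l = m - k := ⟨_, rfl⟩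
        have hm : m = k + l := by omega
        have hn' : n = k - l := by omega
        by_cases hn2' : n = 2
        · obtain ⟨j, hj⟩ : ∃ j, j = k - 1 := ⟨_, rfl⟩
          have hmj : m = 2 * j := by omega
          have h3 : Net W (2 * j) 3 := by
            have h := net_odd_step hodd (j + 1) (j - 2)
              (ih' _ _ (by omega) (by omega) (by omega)) (ih' _ _ (by omega) (by omega) (by omega))
              (ih' _ _ (by omega) (by omega) (by omega)) (ih' _ _ (by omega) (by omega) (by omega))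
            rw [show j + 1 + (j - 2) + 1 = 2 * j by ring, show j + 1 - (j - 2) = 3 by ring] at h
            exact h
          have key := net_somos_even_step_mul hneg h1 hodd heven j
            (ih' _ _ (by omega) (by omega) (by omega)) (ih' _ _ (by omega) (by omega) (by omega))
            (ih' _ _ (by omega) (by omega) (by omega)) h3
          have key' := hc4 _ _ key
          rw [hn2', hmj]
          unfold Net
          rw [show (2 : ℤ) + 1 = 3 by ring, show (2 : ℤ) - 1 = 1 by ring]
          exact key'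
        · have key := net_even_step_mul heven k l
            (ih' _ _ (by omega) (by omega) (by omega)) (ih' _ _ (by omega) (by omega) (by omega))
            (ih' _ _ (by omega) (by omega) (by omega)) (ih' _ _ (by omega) (by omega) (by omega))
            (ih' _ _ (by omega) (by omega) (by omega)) (ih' _ _ (by omega) (by omega) (by omega))
          have key' := hc2 _ _ key
          rw [hm, hn']
          exact key'
      · -- odd total index
        obtain ⟨l, hl⟩ : ∃ l, l = m - k - 1 := ⟨_, rfl⟩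
        have hm : m = k + l + 1 := by omega
        have hn' : n = k - l := by omega
        rw [hm, hn']
        exact net_odd_step hodd k l
          (ih' _ _ (by omega) (by omega) (by omega)) (ih' _ _ (by omega) (by omega) (by omega))
          (ih' _ _ (by omega) (by omega) (by omega)) (ih' _ _ (by omega) (by omega) (by omega))
    intro m n hm hn hle
    rcases le_total n m with h | h
    · exact core m n hn h hle
    · exact (core n m hm h (by omega)).swap hneg

/-- The elliptic-sequence relation for all integer indices. -/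
theorem net_of_relations (hneg : ∀ n, W (-n) = -W n) (h0 : W 0 = 0) (h1 : W 1 = 1)
    (hodd : ∀ m, W (2 * m + 1) = W (m + 2) * W m ^ 3 - W (m - 1) * W (m + 1) ^ 3)
    (heven : ∀ m, W (2 * m) * W 2 =
      W (m - 1) ^ 2 * W m * W (m + 2) - W (m - 2) * W m * W (m + 1) ^ 2)
    (hc2 : ∀ x y : R, W 2 ^ 2 * x = W 2 ^ 2 * y → x = y)
    (hc4 : ∀ x y : R, W 4 * W 2 * x = W 4 * W 2 * y → x = y) (m n : ℤ) : Net W m n := by
  have key : ∀ m n : ℤ, 0 ≤ m → 0 ≤ n → Net W m n := fun m n hm hn =>
    net_of_nonneg hneg h0 h1 hodd heven hc2 hc4 (m + n).toNat m n hm hn (by omega)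
  rcases le_total 0 m with hm | hm <;> rcases le_total 0 n with hn | hn
  · exact key m n hm hn
  · have h := (key m (-n) hm (by omega)).neg_right hneg
    rwa [neg_neg] at h
  · have h := (key (-m) n (by omega) hn).neg_left hneg
    rwa [neg_neg] at h
  · have h := ((key (-m) (-n) (by omega) (by omega)).neg_left hneg).neg_right hneg
    rwa [neg_neg, neg_neg] at h

end Abstract

section NormEDS

open MvPolynomial in
/-- (K1) in the universal ring `ℤ[b, c, d]`. -/
theorem normEDS_net_universal (m n : ℤ) :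
    Net (normEDS (X 0 : MvPolynomial (Fin 3) ℤ) (X 1) (X 2)) m n := by
  have hb : (X 0 : MvPolynomial (Fin 3) ℤ) ≠ 0 := X_ne_zero _
  have hd : (X 2 : MvPolynomial (Fin 3) ℤ) ≠ 0 := X_ne_zero _
  refine net_of_relations (fun n => normEDS_neg _ _ _ n) (normEDS_zero _ _ _) (normEDS_one _ _ _)
    (fun m => normEDS_odd _ _ _ m) (fun m => ?_) (fun x y h => ?_) (fun x y h => ?_) m n
  · rw [normEDS_two]
    exact normEDS_even _ _ _ m
  · rw [normEDS_two] at h
    exact mul_left_cancel₀ (pow_ne_zero 2 hb) h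
  · rw [normEDS_two, normEDS_four] at h
    exact mul_left_cancel₀ (mul_ne_zero (mul_ne_zero hd hb) hb) h

variable {R : Type*} [CommRing R]

/-- **The elliptic-sequence relation for `normEDS`**, all integer indices, any commutative ring:
`W(m+n) W(m-n) = W(m+1) W(m-1) W(n)^2 - W(n+1) W(n-1) W(m)^2`. -/
theorem normEDS_net (b c d : R) (m n : ℤ) :
    normEDS b c d (m + n) * normEDS b c d (m - n) =
      normEDS b c d (m + 1) * normEDS b c d (m - 1) * normEDS b c d n ^ 2 -
        normEDS b c d (n + 1) * normEDS b c d (n - 1) * normEDS b c d m ^ 2 := by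
  have h := normEDS_net_universal m n
  unfold Net at h
  have h' := congrArg (MvPolynomial.aeval (R := ℤ) ![b, c, d]) h
  simpa only [map_mul, map_sub, map_pow, map_normEDS, MvPolynomial.aeval_X, Matrix.cons_val_zero,
    Matrix.cons_val_one, Matrix.cons_val_two, Matrix.head_cons, Matrix.tail_cons] using h'

/-- Somos-4 form: `W(n+2) W(n-2) = W(n+1) W(n-1) W(2)^2 - W(3) W(n)^2`. -/
theorem normEDS_somos (b c d : R) (n : ℤ) :
    normEDS b c d (n + 2) * normEDS b c d (n - 2) =
      normEDS b c d (n + 1) * normEDS b c d (n - 1) * b ^ 2 - c * normEDS b c d n ^ 2 := by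
  have h := normEDS_net b c d n 2
  rw [show (2 : ℤ) + 1 = 3 by ring, show (2 : ℤ) - 1 = 1 by ring, normEDS_two, normEDS_three,
    normEDS_one] at h
  linear_combination h

/-- `normEDS b c d` is an elliptic sequence in Mathlib's sense. -/
theorem isEllipticSequence_normEDS (b c d : R) : IsEllipticSequence (normEDS b c d) := by
  intro p q r
  have h1 := normEDS_net b c d p q
  have h2 := normEDS_net b c d p r
  have h3 := normEDS_net b c d q r
  unfold IsEllipticNet.rel
  simp only [add_zero]
  linear_combination (normEDS b c d r ^ 2) * h1 - (normEDS b c d q ^ 2) * h2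
    + (normEDS b c d p ^ 2) * h3

end NormEDS

end Fermat.Agent.Lib.ECTors
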