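/-
EC-TORS (C), abstract core: multiplication-by-`n` on a Weierstrass curve via an elliptic
sequence.  Given a point `P` with `x`-coordinate `x` and a sequence `w : ℤ → F` satisfying the
elliptic-sequence relation together with the first few compatibilities with the group law
(duplication, triplication, and the `x`-only addition formula), we show for all integers `n`:
`n • P = 0 ↔ w n = 0`, and the `x`-coordinate `t` of `n • P` satisfies
`(t - x) * w n ^ 2 = -(w (n + 1) * w (n - 1))`.
-/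
import Mathlib.AlgebraicGeometry.EllipticCurve.Affine.Point
import Mathlib.GroupTheory.OrderOfElement
import Mathlib.Tactic

set_option autoImplicit false

namespace Fermat.Agent.Lib.ECTors

open WeierstrassCurve WeierstrassCurve.Affine

variable {F : Type*} [Field F] {W : Affine F}

/-- `Q` is an affine point with `x`-coordinate `t`. -/
def HasX (Q : W.Point) (t : F) : Prop :=
  ∃ (y : F) (h : W.Nonsingular t y), Q = Point.some t y h

theorem hasX_some {x y : F} (h : W.Nonsingular x y) : HasX (Point.some x y h) x :=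
  ⟨y, h, rfl⟩

theorem HasX.ne_zero {Q : W.Point} {t : F} (h : HasX Q t) : Q ≠ 0 := by
  obtain ⟨y, hy, rfl⟩ := h
  exact Point.some_ne_zero hy

theorem exists_hasX_of_ne_zero {Q : W.Point} (h : Q ≠ 0) : ∃ t, HasX Q t := by
  match Q, h with
  | Point.zero, h => exact absurd rfl h
  | Point.some x y hxy, _ => exact ⟨x, y, hxy, rfl⟩

theorem HasX.unique {Q : W.Point} {t t' : F} (h : HasX Q t) (h' : HasX Q t') : t = t' := by
  obtain ⟨y, hy, rfl⟩ := h
  obtain ⟨y', hy', h'⟩ := h'
  simp only [Point.some.injEq] at h'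
  exact h'.1

theorem HasX.neg {Q : W.Point} {t : F} (h : HasX Q t) : HasX (-Q) t := by
  obtain ⟨y, hy, rfl⟩ := h
  exact ⟨_, _, Point.neg_some hy⟩

theorem HasX.eq_or_eq_neg {Q Q' : W.Point} {t : F} (h : HasX Q t) (h' : HasX Q' t) :
    Q = Q' ∨ Q = -Q' := by
  obtain ⟨y, hy, rfl⟩ := h
  obtain ⟨y', hy', rfl⟩ := h'
  exact Point.X_eq_iff.mp rfl

section Core

variable [DecidableEq F]

/-- The statement at index `n`: `n • P = 0 ↔ w n = 0`, and the `x`-coordinate formula. -/
def St (P : W.Point) (x : F) (w : ℤ → F) (n : ℤ) : Prop :=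
  (n • P = 0 ↔ w n = 0) ∧
    ∀ t, HasX (n • P) t → (t - x) * w n ^ 2 = -(w (n + 1) * w (n - 1))

variable {P : W.Point} {x : F} {w : ℤ → F}

theorem st_one (hP : HasX P x) (hw0 : w 0 = 0) (hw1 : w 1 = 1) : St P x w 1 := by
  refine ⟨?_, fun t ht => ?_⟩
  · rw [one_smul, hw1]
    exact ⟨fun h => absurd h hP.ne_zero, fun h => absurd h one_ne_zero⟩
  · rw [one_smul] at ht
    have htx := ht.unique hP
    subst htx
    rw [show (1 : ℤ) - 1 = 0 by norm_num, hw0]
    ring

theorem st_two (hw1 : w 1 = 1) (H2 : (2 : ℤ) • P = 0 ↔ w 2 = 0)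
    (H2x : ∀ t, HasX ((2 : ℤ) • P) t → (t - x) * w 2 ^ 2 = -w 3) : St P x w 2 := by
  refine ⟨H2, fun t ht => ?_⟩
  rw [show (2 : ℤ) + 1 = 3 by norm_num, show (2 : ℤ) - 1 = 1 by norm_num, hw1, mul_one]
  exact H2x t ht

theorem st_three (hP : HasX P x) (hw1 : w 1 = 1) (h2 : St P x w 2) (H3 : w 2 = 0 → w 3 ≠ 0)
    (H3x : w 2 ≠ 0 → w 3 ≠ 0 →
      ∀ t, HasX ((3 : ℤ) • P) t → (t - x) * w 3 ^ 2 = -(w 4 * w 2)) : St P x w 3 := by
  have e3 : (3 : ℤ) • P = (2 : ℤ) • P + P := by
    rw [show (3 : ℤ) = 2 + 1 by norm_num, add_smul, one_smul]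
  have e31 : (3 : ℤ) + 1 = 4 := by norm_num
  have e32 : (3 : ℤ) - 1 = 2 := by norm_num
  by_cases hb : w 2 = 0
  · have h2P : (2 : ℤ) • P = 0 := h2.1.mpr hb
    have h3P : (3 : ℤ) • P = P := by rw [e3, h2P, zero_add]
    refine ⟨?_, fun t ht => ?_⟩
    · rw [h3P]
      exact ⟨fun h => absurd h hP.ne_zero, fun h => absurd h (H3 hb)⟩
    · rw [h3P] at ht
      have htx := ht.unique hP
      subst htx
      rw [e32, hb]
      ring
  · have h2P : (2 : ℤ) • P ≠ 0 := fun h => hb (h2.1.mp h)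
    obtain ⟨t₂, ht₂⟩ := exists_hasX_of_ne_zero h2P
    have e2 := h2.2 t₂ ht₂
    rw [show (2 : ℤ) + 1 = 3 by norm_num, show (2 : ℤ) - 1 = 1 by norm_num, hw1, mul_one] at e2
    have key : (3 : ℤ) • P = 0 ↔ w 3 = 0 := by
      constructor
      · intro h
        rw [e3] at h
        have h' : (2 : ℤ) • P = -P := eq_neg_of_add_eq_zero_left h
        have hx' : HasX ((2 : ℤ) • P) x := h' ▸ hP.neg
        have htx := ht₂.unique hx'
        subst htx
        have : w 3 = -((t₂ - t₂) * w 2 ^ 2) := by rw [e2]; ring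
        rw [this]; ring
      · intro h
        have htx : t₂ = x := by
          rw [h, neg_zero] at e2
          have := (mul_eq_zero.mp e2).resolve_right (pow_ne_zero 2 hb)
          exact sub_eq_zero.mp this
        subst htx
        rcases ht₂.eq_or_eq_neg hP with h' | h'
        · exfalso
          apply hP.ne_zero
          have e2' : (2 : ℤ) • P = P + P := by
            rw [show (2 : ℤ) = 1 + 1 by norm_num, add_smul, one_smul]
          rw [e2'] at h'
          exact add_eq_left.mp h'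
        · rw [e3, h', neg_add_cancel]
    refine ⟨key, fun t ht => ?_⟩
    have h3 : w 3 ≠ 0 := fun h => ht.ne_zero (key.mpr h)
    rw [e31, e32]
    exact H3x hb h3 t ht

theorem st_step (hP : HasX P x)
    (net : ∀ m n : ℤ, w (m + n) * w (m - n) =
      w (m + 1) * w (m - 1) * w n ^ 2 - w (n + 1) * w (n - 1) * w m ^ 2)
    (hw1 : w 1 = 1)
    (H4 : w 3 = 0 → w 2 ≠ 0 → w 4 ≠ 0)
    (Hadd : ∀ (Q : W.Point) (t : F), HasX Q t → t ≠ x → ∃ tp tm, HasX (Q + P) tp ∧
      HasX (Q - P) tm ∧ (tp - x) * (tm - x) * (t - x) ^ 2 = -((t - x) * w 2 ^ 2 + w 3))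
    (n : ℤ) (hn : 4 ≤ n) (ih : ∀ k : ℤ, 1 ≤ k → k < n → St P x w k) : St P x w n := by
  by_cases hZ : ∃ k : ℤ, 1 ≤ k ∧ k < n ∧ k • P = 0
  · -- `P` is torsion of order `d < n`
    obtain ⟨k, hk1, hkn, hkP⟩ := hZ
    obtain ⟨d, hd⟩ : ∃ d : ℤ, d = (addOrderOf P : ℤ) := ⟨_, rfl⟩
    have hdvd : ∀ m : ℤ, m • P = 0 ↔ d ∣ m := fun m => by
      rw [hd]; exact addOrderOf_dvd_iff_zsmul_eq_zero.symm
    have hdk : d ∣ k := (hdvd k).mp hkP
    have hd_pos : 0 < d := by
      have h0 : 0 ≤ d := by rw [hd]; exact Int.natCast_nonneg _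
      rcases eq_or_lt_of_le h0 with h | h
      · rw [← h] at hdk
        have := zero_dvd_iff.mp hdk
        omega
      · exact h
    have hd_le : d ≤ k := Int.le_of_dvd (by omega) hdk
    have hd2 : 2 ≤ d := by
      by_contra h
      have h1 : d = 1 := by omega
      have h1P : (1 : ℤ) • P = 0 := (hdvd 1).mpr (by rw [h1])
      rw [one_smul] at h1P
      exact hP.ne_zero h1P
    have hwz : ∀ m : ℤ, 1 ≤ m → m < n → (w m = 0 ↔ d ∣ m) := fun m hm1 hmn => by
      rw [← hdvd m]; exact (ih m hm1 hmn).1.symm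
    have hwd : w d = 0 := (hwz d (by omega) (by omega)).mpr dvd_rfl
    have hnd1 : ¬ d ∣ d - 1 := fun h => by
      have := Int.le_of_dvd (by omega) h
      omega
    have hnd1' : ¬ d ∣ d + 1 := fun h => by
      have h1 : d ∣ 1 := (Int.dvd_add_right dvd_rfl).mp h
      have := Int.le_of_dvd one_pos h1
      omega
    have hwd1 : w (d - 1) ≠ 0 := fun h => hnd1 ((hwz (d - 1) (by omega) (by omega)).mp h)
    by_cases hdn : d ∣ n
    · have hnP : n • P = 0 := (hdvd n).mpr hdn
      have h2d : 2 * d ≤ n := by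
        obtain ⟨c, hc⟩ := hdn
        have hc2 : 2 ≤ c := by
          by_contra hc2
          have hc1 : c ≤ 1 := by omega
          nlinarith
        nlinarith
      have hwd1' : w (d + 1) ≠ 0 := fun h =>
        hnd1' ((hwz (d + 1) (by omega) (by omega)).mp h)
      have hwnd : w (n - d) = 0 :=
        (hwz (n - d) (by omega) (by omega)).mpr (dvd_sub hdn dvd_rfl)
      have hnet := net n d
      rw [hwnd, hwd] at hnet
      have hwn : w n = 0 := by
        have h0 : w (d + 1) * w (d - 1) * w n ^ 2 = 0 := by linear_combination hnet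
        have h1 := (mul_eq_zero.mp h0).resolve_left (mul_ne_zero hwd1' hwd1)
        exact pow_eq_zero_iff (two_ne_zero) |>.mp h1
      exact ⟨⟨fun _ => hwn, fun _ => hnP⟩, fun t ht => absurd hnP ht.ne_zero⟩
    · have hnP : n • P ≠ 0 := fun h => hdn ((hdvd n).mp h)
      obtain ⟨j, hj⟩ : ∃ j : ℤ, j = n - d := ⟨_, rfl⟩
      have hj1 : 1 ≤ j := by omega
      have hjn : j < n := by omega
      have hdj : ¬ d ∣ j := fun h => hdn (by
        have h' := dvd_add h (dvd_refl d)
        rwa [hj, sub_add_cancel] at h')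
      have hwj : w j ≠ 0 := fun h => hdj ((hwz j hj1 hjn).mp h)
      have hjP : j • P = n • P := by
        have h' : n • P = j • P + d • P := by rw [← add_smul, hj, sub_add_cancel]
        rw [h', (hdvd d).mpr dvd_rfl, add_zero]
      have hwn : w n ≠ 0 := by
        intro hwn
        by_cases hj1' : j = 1
        · have hnd : n = d + 1 := by omega
          have hs := net (d - 1) 2
          rw [show d - 1 + 2 = d + 1 by ring, show d - 1 - 2 = d - 3 by ring,
            show d - 1 + 1 = d by ring, show d - 1 - 1 = d - 2 by ring,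
            show (2 : ℤ) + 1 = 3 by norm_num, show (2 : ℤ) - 1 = 1 by norm_num, hw1, ← hnd, hwn,
            hwd] at hs
          have hw3 : w 3 = 0 := by
            have h0 : w 3 * w (d - 1) ^ 2 = 0 := by linear_combination hs
            exact (mul_eq_zero.mp h0).resolve_right (pow_ne_zero 2 hwd1)
          have h3 : d ∣ 3 := (hwz 3 (by omega) (by omega)).mp hw3
          have hd3 : d = 3 := by
            have := Int.le_of_dvd (by norm_num) h3
            omega
          have hw2 : w 2 ≠ 0 := fun h => by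
            have h2 := (hwz 2 (by omega) (by omega)).mp h
            rw [hd3] at h2
            omega
          have hn4 : n = 4 := by omega
          exact H4 hw3 hw2 (hn4 ▸ hwn)
        · have hwd1' : w (d + 1) ≠ 0 := fun h =>
            hnd1' ((hwz (d + 1) (by omega) (by omega)).mp h)
          have hs := net d j
          rw [show d + j = n by omega, hwd, hwn] at hs
          have h0 : w (d + 1) * w (d - 1) * w j ^ 2 = 0 := by linear_combination -hs
          exact mul_ne_zero (mul_ne_zero hwd1' hwd1) (pow_ne_zero 2 hwj) h0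
      refine ⟨⟨fun h => absurd h hnP, fun h => absurd h hwn⟩, fun t ht => ?_⟩
      have htj : HasX (j • P) t := hjP ▸ ht
      have ej := (ih j hj1 hjn).2 t htj
      have hs := net n j
      rw [show n - j = d by omega, hwd] at hs
      apply mul_right_cancel₀ (pow_ne_zero 2 hwj)
      linear_combination (w n ^ 2) * ej - hs
  · -- no torsion below `n`
    have hne : ∀ k : ℤ, 1 ≤ k → k < n → k • P ≠ 0 := fun k h1 h2 h => hZ ⟨k, h1, h2, h⟩
    have hwne : ∀ k : ℤ, 1 ≤ k → k < n → w k ≠ 0 := fun k h1 h2 h =>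
      hne k h1 h2 ((ih k h1 h2).1.mpr h)
    obtain ⟨t, ht⟩ := exists_hasX_of_ne_zero (hne (n - 1) (by omega) (by omega))
    have e1 := (ih (n - 1) (by omega) (by omega)).2 t ht
    rw [show n - 1 + 1 = n by ring, show n - 1 - 1 = n - 2 by ring] at e1
    have hadd1 : (n - 1) • P + P = n • P := by
      rw [sub_smul, one_smul, sub_add_cancel]
    have hsub1 : (n - 1) • P - P = (n - 2) • P := by
      rw [show n - 2 = n - 1 - 1 by ring, sub_smul (n - 1) 1, one_smul]
    have key : n • P = 0 ↔ w n = 0 := by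
      constructor
      · intro h
        rw [← hadd1] at h
        have h' : (n - 1) • P = -P := eq_neg_of_add_eq_zero_left h
        have hx' : HasX ((n - 1) • P) x := h' ▸ hP.neg
        have htx := ht.unique hx'
        subst htx
        have h0 : w n * w (n - 2) = 0 := by linear_combination e1
        exact (mul_eq_zero.mp h0).resolve_right (hwne (n - 2) (by omega) (by omega))
      · intro h
        have htx : t = x := by
          rw [h] at e1
          have h0 : (t - x) * w (n - 1) ^ 2 = 0 := by linear_combination e1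
          exact sub_eq_zero.mp ((mul_eq_zero.mp h0).resolve_right
            (pow_ne_zero 2 (hwne (n - 1) (by omega) (by omega))))
        subst htx
        rcases ht.eq_or_eq_neg hP with h' | h'
        · exfalso
          apply hne (n - 2) (by omega) (by omega)
          rw [← hsub1, h', sub_self]
        · rw [← hadd1, h', neg_add_cancel]
    refine ⟨key, fun t' ht' => ?_⟩
    have hwn : w n ≠ 0 := fun h => ht'.ne_zero (key.mpr h)
    have htx : t ≠ x := by
      intro h
      subst h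
      have h0 : w n * w (n - 2) = 0 := by linear_combination e1
      exact mul_ne_zero hwn (hwne (n - 2) (by omega) (by omega)) h0
    obtain ⟨tp, tm, htp, htm, e3⟩ := Hadd _ t ht htx
    rw [hadd1] at htp
    rw [hsub1] at htm
    have htp' := htp.unique ht'
    subst htp'
    have e2 := (ih (n - 2) (by omega) (by omega)).2 tm htm
    rw [show n - 2 + 1 = n - 1 by ring, show n - 2 - 1 = n - 3 by ring] at e2
    have e4 := net (n - 1) 2
    rw [show n - 1 + 2 = n + 1 by ring, show n - 1 - 2 = n - 3 by ring,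
      show n - 1 + 1 = n by ring, show n - 1 - 1 = n - 2 by ring,
      show (2 : ℤ) + 1 = 3 by norm_num, show (2 : ℤ) - 1 = 1 by norm_num, hw1] at e4
    have h3' : (tp - x) * ((tm - x) * w (n - 2) ^ 2) * ((t - x) * w (n - 1) ^ 2) ^ 2 =
        -(((t - x) * w (n - 1) ^ 2) * w 2 ^ 2 * w (n - 1) ^ 2 + w 3 * w (n - 1) ^ 4) *
          w (n - 2) ^ 2 := by
      linear_combination (w (n - 1) ^ 4 * w (n - 2) ^ 2) * e3
    rw [e1, e2] at h3'
    have hnz : w (n - 3) * w (n - 1) * w (n - 2) ^ 2 ≠ 0 :=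
      mul_ne_zero (mul_ne_zero (hwne _ (by omega) (by omega)) (hwne _ (by omega) (by omega)))
        (pow_ne_zero 2 (hwne _ (by omega) (by omega)))
    apply mul_right_cancel₀ hnz
    linear_combination (-1 : F) * h3' + (w (n - 1) ^ 2 * w (n - 2) ^ 2) * e4

/-- Abstract multiplication theorem, positive indices. -/
theorem st_of_pos (hP : HasX P x)
    (net : ∀ m n : ℤ, w (m + n) * w (m - n) =
      w (m + 1) * w (m - 1) * w n ^ 2 - w (n + 1) * w (n - 1) * w m ^ 2)
    (hw0 : w 0 = 0) (hw1 : w 1 = 1)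
    (H2 : (2 : ℤ) • P = 0 ↔ w 2 = 0)
    (H2x : ∀ t, HasX ((2 : ℤ) • P) t → (t - x) * w 2 ^ 2 = -w 3)
    (H3 : w 2 = 0 → w 3 ≠ 0)
    (H3x : w 2 ≠ 0 → w 3 ≠ 0 →
      ∀ t, HasX ((3 : ℤ) • P) t → (t - x) * w 3 ^ 2 = -(w 4 * w 2))
    (H4 : w 3 = 0 → w 2 ≠ 0 → w 4 ≠ 0)
    (Hadd : ∀ (Q : W.Point) (t : F), HasX Q t → t ≠ x → ∃ tp tm, HasX (Q + P) tp ∧
      HasX (Q - P) tm ∧ (tp - x) * (tm - x) * (t - x) ^ 2 = -((t - x) * w 2 ^ 2 + w 3)) :
    ∀ (N : ℕ) (n : ℤ), 1 ≤ n → n ≤ N → St P x w n := by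
  intro N
  induction N with
  | zero => intro n h1 h2; omega
  | succ N ih =>
    intro n h1 h2
    by_cases hle : n ≤ N
    · exact ih n h1 hle
    have ih' : ∀ k : ℤ, 1 ≤ k → k < n → St P x w k := fun k hk1 hk2 => ih k hk1 (by omega)
    have s1 := st_one hP hw0 hw1
    have s2 := st_two hw1 H2 H2x
    have s3 := st_three hP hw1 s2 H3 H3x
    by_cases hn1 : n = 1
    · rw [hn1]; exact s1
    by_cases hn2 : n = 2
    · rw [hn2]; exact s2
    by_cases hn3 : n = 3
    · rw [hn3]; exact s3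
    exact st_step hP net hw1 H4 Hadd n (by omega) ih'

/-- Abstract multiplication theorem, all integer indices. -/
theorem st_all (hP : HasX P x)
    (net : ∀ m n : ℤ, w (m + n) * w (m - n) =
      w (m + 1) * w (m - 1) * w n ^ 2 - w (n + 1) * w (n - 1) * w m ^ 2)
    (hneg : ∀ n, w (-n) = -w n) (hw0 : w 0 = 0) (hw1 : w 1 = 1)
    (H2 : (2 : ℤ) • P = 0 ↔ w 2 = 0)
    (H2x : ∀ t, HasX ((2 : ℤ) • P) t → (t - x) * w 2 ^ 2 = -w 3)
    (H3 : w 2 = 0 → w 3 ≠ 0)
    (H3x : w 2 ≠ 0 → w 3 ≠ 0 →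
      ∀ t, HasX ((3 : ℤ) • P) t → (t - x) * w 3 ^ 2 = -(w 4 * w 2))
    (H4 : w 3 = 0 → w 2 ≠ 0 → w 4 ≠ 0)
    (Hadd : ∀ (Q : W.Point) (t : F), HasX Q t → t ≠ x → ∃ tp tm, HasX (Q + P) tp ∧
      HasX (Q - P) tm ∧ (tp - x) * (tm - x) * (t - x) ^ 2 = -((t - x) * w 2 ^ 2 + w 3))
    (n : ℤ) : St P x w n := by
  have pos : ∀ m : ℤ, 1 ≤ m → St P x w m := fun m hm =>
    st_of_pos hP net hw0 hw1 H2 H2x H3 H3x H4 Hadd m.toNat m hm (by omega)
  rcases lt_trichotomy n 0 with hn | hn | hn
  · obtain ⟨m, rfl⟩ : ∃ m : ℤ, n = -m := ⟨-n, by ring⟩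
    have hm := pos m (by omega)
    refine ⟨?_, fun t ht => ?_⟩
    · rw [neg_smul, neg_eq_zero, hneg, neg_eq_zero]
      exact hm.1
    · rw [neg_smul] at ht
      have ht' : HasX (m • P) t := by simpa using ht.neg
      have e := hm.2 t ht'
      rw [show -m + 1 = -(m - 1) by ring, show -m - 1 = -(m + 1) by ring, hneg, hneg, hneg]
      linear_combination e
  · subst hn
    refine ⟨⟨fun _ => hw0, fun _ => zero_smul _ _⟩, fun t ht => ?_⟩
    rw [zero_smul] at ht
    exact absurd rfl ht.ne_zero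
  · exact pos n (by omega)

end Core

end Fermat.Agent.Lib.ECTors
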