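/-
EC-TORS library (helper5): `x`-coordinate identities for the group law of an arbitrary Weierstrass
curve over a field.  For two affine points `A = (x₁,y₁)`, `B = (x₂,y₂)` with `x₁ ≠ x₂`:

  (x(A+B) - X) (x(A-B) - X) (x₁ - x₂)² = Φ(x₁, x₂, X)

where `Φ = XAdd.Phi` is a symmetric biquadratic form in three variables.  Consequences: the sum and
the product formula for `x(A+B)`, `x(A-B)`, and the value on the diagonal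
`Φ(X, x, x) = -((X - x) Ψ₂Sq(x) + Ψ₃(x))`.
-/
import Mathlib

set_option autoImplicit false

namespace Fermat.Agent.Lib.ECTors.XAdd

open WeierstrassCurve WeierstrassCurve.Affine

variable {F : Type*} [Field F]

/-- The symmetric biquadratic form: `Φ(x(A), x(B), x(C)) = 0` iff `±A ± B ± C = 0`. -/
def Phi (W : Affine F) (X₁ X₂ X₃ : F) : F :=
  X₁ ^ 2 * X₂ ^ 2 + X₂ ^ 2 * X₃ ^ 2 + X₃ ^ 2 * X₁ ^ 2 - 2 * X₁ * X₂ * X₃ * (X₁ + X₂ + X₃)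
    - W.b₂ * X₁ * X₂ * X₃ - W.b₄ * (X₁ * X₂ + X₂ * X₃ + X₃ * X₁) - W.b₆ * (X₁ + X₂ + X₃) - W.b₈

theorem Phi_comm₁₂ (W : Affine F) (X₁ X₂ X₃ : F) : Phi W X₁ X₂ X₃ = Phi W X₂ X₁ X₃ := by
  unfold Phi; ring

theorem Phi_comm₂₃ (W : Affine F) (X₁ X₂ X₃ : F) : Phi W X₁ X₂ X₃ = Phi W X₁ X₃ X₂ := by
  unfold Phi; ring

theorem Phi_comm₁₃ (W : Affine F) (X₁ X₂ X₃ : F) : Phi W X₁ X₂ X₃ = Phi W X₃ X₂ X₁ := by
  unfold Phi; ring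

/-- `Φ` as a quadratic polynomial in its last variable. -/
theorem Phi_eq_quadratic (W : Affine F) (x₁ x₂ X : F) :
    Phi W x₁ x₂ X = (x₁ - x₂) ^ 2 * X ^ 2
      - (2 * x₁ * x₂ * (x₁ + x₂) + W.b₂ * x₁ * x₂ + W.b₄ * (x₁ + x₂) + W.b₆) * X
      + (x₁ ^ 2 * x₂ ^ 2 - W.b₄ * x₁ * x₂ - W.b₆ * (x₁ + x₂) - W.b₈) := by
  unfold Phi; ring

/-- The value of `Φ` on the diagonal, in terms of the division polynomials `Ψ₂Sq` and `Ψ₃`. -/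
theorem Phi_diag (W : Affine F) (X x : F) :
    Phi W X x x = -((X - x) * W.Ψ₂Sq.eval x + W.Ψ₃.eval x) := by
  simp only [Phi, WeierstrassCurve.Ψ₂Sq, WeierstrassCurve.Ψ₃, Polynomial.eval_add,
    Polynomial.eval_mul, Polynomial.eval_pow, Polynomial.eval_C, Polynomial.eval_X,
    Polynomial.eval_ofNat]
  ring

variable [DecidableEq F]

/-- The key identity: the `x`-coordinates of `A + B` and `A - B` are the two roots of the quadratic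
`Φ(x₁, x₂, X)` (leading coefficient `(x₁ - x₂)²`). -/
theorem addX_mul_addX (W : Affine F) {x₁ y₁ x₂ y₂ : F} (h₁ : W.Equation x₁ y₁)
    (h₂ : W.Equation x₂ y₂) (hx : x₁ ≠ x₂) (X : F) :
    (W.addX x₁ x₂ (W.slope x₁ x₂ y₁ y₂) - X) *
      (W.addX x₁ x₂ (W.slope x₁ x₂ y₁ (W.negY x₂ y₂)) - X) * (x₁ - x₂) ^ 2 = Phi W x₁ x₂ X := by
  rw [slope_of_X_ne hx, slope_of_X_ne hx]
  rw [WeierstrassCurve.Affine.equation_iff] at h₁ h₂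
  have hd : x₁ - x₂ ≠ 0 := sub_ne_zero.mpr hx
  simp only [WeierstrassCurve.Affine.addX, WeierstrassCurve.Affine.negY, Phi,
    WeierstrassCurve.b₂, WeierstrassCurve.b₄, WeierstrassCurve.b₆, WeierstrassCurve.b₈]
  field_simp
  linear_combination
    (-x₁ ^ 3 + 2 * x₁ ^ 2 * x₂ - 2 * x₁ ^ 2 * X - x₁ ^ 2 * W.a₂ + x₁ * y₁ * W.a₁ + 2 * x₁ * x₂ ^ 2
      + 4 * x₁ * x₂ * X + x₁ * x₂ * W.a₁ ^ 2 + 4 * x₁ * x₂ * W.a₂ + x₁ * W.a₁ * W.a₃ + x₁ * W.a₄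
      + y₁ ^ 2 + y₁ * W.a₃ - 2 * x₂ ^ 3 - 2 * x₂ ^ 2 * X - x₂ ^ 2 * W.a₁ ^ 2 - 2 * x₂ ^ 2 * W.a₂
      - 2 * x₂ * y₂ * W.a₁ - x₂ * W.a₁ * W.a₃ - 2 * y₂ ^ 2 - 2 * y₂ * W.a₃ + W.a₆) * h₁
    + (-4 * x₁ ^ 3 + 2 * x₁ ^ 2 * x₂ - 2 * x₁ ^ 2 * X - x₁ ^ 2 * W.a₁ ^ 2 - 4 * x₁ ^ 2 * W.a₂
      + 2 * x₁ * x₂ ^ 2 + 4 * x₁ * x₂ * X + x₁ * x₂ * W.a₁ ^ 2 + 4 * x₁ * x₂ * W.a₂
      - x₁ * W.a₁ * W.a₃ - 2 * x₁ * W.a₄ - x₂ ^ 3 - 2 * x₂ ^ 2 * X - x₂ ^ 2 * W.a₂ + x₂ * y₂ * W.a₁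
      + x₂ * W.a₁ * W.a₃ + x₂ * W.a₄ + y₂ ^ 2 + y₂ * W.a₃ - W.a₆) * h₂

/-- Point-level version: if `x₁ ≠ x₂` then `A + B` and `A - B` are affine points whose
`x`-coordinates `x₊`, `x₋` satisfy `(x₊ - X)(x₋ - X)(x₁ - x₂)² = Φ(x₁, x₂, X)` for every `X`. -/
theorem add_sub_x {W : Affine F} {x₁ y₁ x₂ y₂ : F} (h₁ : W.Nonsingular x₁ y₁)
    (h₂ : W.Nonsingular x₂ y₂) (hx : x₁ ≠ x₂) :
    ∃ (xp yp xm ym : F) (hp : W.Nonsingular xp yp) (hm : W.Nonsingular xm ym),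
      Point.some x₁ y₁ h₁ + Point.some x₂ y₂ h₂ = Point.some xp yp hp ∧
      Point.some x₁ y₁ h₁ - Point.some x₂ y₂ h₂ = Point.some xm ym hm ∧
      ∀ X : F, (xp - X) * (xm - X) * (x₁ - x₂) ^ 2 = Phi W x₁ x₂ X := by
  have hxy : ¬(x₁ = x₂ ∧ y₁ = W.negY x₂ y₂) := fun h => hx h.1
  have h₂' : W.Nonsingular x₂ (W.negY x₂ y₂) := (nonsingular_neg x₂ y₂).mpr h₂
  have hxy' : ¬(x₁ = x₂ ∧ y₁ = W.negY x₂ (W.negY x₂ y₂)) := fun h => hx h.1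
  refine ⟨_, _, _, _, nonsingular_add h₁ h₂ hxy, nonsingular_add h₁ h₂' hxy',
    Point.add_some hxy, ?_, fun X => addX_mul_addX W h₁.1 h₂.1 hx X⟩
  rw [sub_eq_add_neg, Point.neg_some]
  exact Point.add_some hxy'

end Fermat.Agent.Lib.ECTors.XAdd
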