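/-
EC-TORS (C): multiplication by `n` on a Weierstrass curve over a field via Mathlib's division
polynomials.  For a nonsingular affine point `P = (x, y)` and every integer `n`:

* `n • P = 0 ↔ (W.ΨSq n).eval x = 0`  (`zsmul_eq_zero_iff_ΨSq`),
* if `n • P = (x', y')` then `x' * (W.ΨSq n).eval x = (W.Φ n).eval x`  (`zsmul_some_x`).
-/
import Fermat.Agent.Lib.ECTors.EDSNet
import Fermat.Agent.Lib.ECTors.MulCore
import Fermat.Agent.Lib.ECTors.XAdd
import Fermat.Agent.Lib.ECTors.XFormulas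

set_option autoImplicit false

namespace Fermat.Agent.Lib.ECTors

open WeierstrassCurve WeierstrassCurve.Affine Polynomial

variable {F : Type*} [Field F] (W : Affine F)

/-- The sequence of values `ψ_n(x, y)` of the division polynomials at `(x, y)`. -/
noncomputable def wSeq (x y : F) (n : ℤ) : F :=
  normEDS (2 * y + W.a₁ * x + W.a₃) (W.Ψ₃.eval x) (W.preΨ₄.eval x) n

theorem evalEval_ψ (x y : F) (n : ℤ) : (W.ψ n).evalEval x y = wSeq W x y n := by
  have h := map_normEDS (Polynomial.evalEvalRingHom x y) W.ψ₂ (C W.Ψ₃) (C W.preΨ₄) n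
  simp only [Polynomial.coe_evalEvalRingHom, Polynomial.evalEval_C] at h
  rw [WeierstrassCurve.ψ, h, ψ₂_evalEval, wSeq]

theorem wSeq_zero (x y : F) : wSeq W x y 0 = 0 := normEDS_zero _ _ _

theorem wSeq_one (x y : F) : wSeq W x y 1 = 1 := normEDS_one _ _ _

theorem wSeq_two (x y : F) : wSeq W x y 2 = 2 * y + W.a₁ * x + W.a₃ := normEDS_two _ _ _

theorem wSeq_three (x y : F) : wSeq W x y 3 = W.Ψ₃.eval x := normEDS_three _ _ _

theorem wSeq_four (x y : F) :
    wSeq W x y 4 = W.preΨ₄.eval x * (2 * y + W.a₁ * x + W.a₃) := normEDS_four _ _ _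

theorem wSeq_neg (x y : F) (n : ℤ) : wSeq W x y (-n) = -wSeq W x y n := normEDS_neg _ _ _ n

/-- On the curve, `ψ_n(x, y) = preΨ_n(x) * (ψ₂(x, y) if n even)`. -/
theorem wSeq_eq_preΨ {x y : F} (h : W.Equation x y) (n : ℤ) :
    wSeq W x y n = (W.preΨ n).eval x * if Even n then 2 * y + W.a₁ * x + W.a₃ else 1 := by
  have h1 := map_preNormEDS (Polynomial.evalRingHom x) (W.Ψ₂Sq ^ 2) W.Ψ₃ W.preΨ₄ n
  simp only [Polynomial.coe_evalRingHom, Polynomial.eval_pow] at h1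
  rw [wSeq, normEDS, WeierstrassCurve.preΨ, h1, Ψ₂Sq_eval_of_equation W h]
  congr 2
  ring

/-- On the curve, `ΨSq_n(x) = ψ_n(x, y)²`. -/
theorem ΨSq_eval_eq {x y : F} (h : W.Equation x y) (n : ℤ) :
    (W.ΨSq n).eval x = wSeq W x y n ^ 2 := by
  rw [wSeq_eq_preΨ W h, WeierstrassCurve.ΨSq, Polynomial.eval_mul, Polynomial.eval_pow, mul_pow]
  split_ifs
  · rw [Ψ₂Sq_eval_of_equation W h]
  · simp

/-- On the curve, `Φ_n(x) = x ψ_n² - ψ_{n+1} ψ_{n-1}`. -/
theorem Φ_eval_eq {x y : F} (h : W.Equation x y) (n : ℤ) :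
    (W.Φ n).eval x = x * wSeq W x y n ^ 2 - wSeq W x y (n + 1) * wSeq W x y (n - 1) := by
  rw [WeierstrassCurve.Φ, Polynomial.eval_sub, Polynomial.eval_mul, Polynomial.eval_X,
    ΨSq_eval_eq W h, wSeq_eq_preΨ W h (n + 1), wSeq_eq_preΨ W h (n - 1), Polynomial.eval_mul,
    Polynomial.eval_mul]
  by_cases hn : Even n
  · have h1 : ¬ Even (n + 1) := by rw [Int.even_add_one]; exact not_not.mpr hn
    have h2 : ¬ Even (n - 1) := by rw [Int.even_sub_one]; exact not_not.mpr hn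
    rw [if_pos hn, if_neg h1, if_neg h2]
    simp
  · have h1 : Even (n + 1) := by rw [Int.even_add_one]; exact hn
    have h2 : Even (n - 1) := by rw [Int.even_sub_one]; exact hn
    rw [if_neg hn, if_pos h1, if_pos h2, Ψ₂Sq_eval_of_equation W h]
    ring

variable [DecidableEq F]

/-- **Multiplication by `n` via division polynomials**, in terms of the value sequence
`wSeq W x y n = ψ_n(x, y)`. -/
theorem st_wSeq {x y : F} (h : W.Nonsingular x y) (n : ℤ) :
    St (Point.some x y h) x (wSeq W x y) n := by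
  have e2 : (2 : ℤ) • Point.some x y h = (2 : ℕ) • Point.some x y h := by
    rw [two_smul, two_nsmul]
  have e3 : (3 : ℤ) • Point.some x y h = (3 : ℕ) • Point.some x y h := by
    rw [show (3 : ℤ) = ((3 : ℕ) : ℤ) by norm_num, natCast_zsmul]
  refine st_all (hasX_some h) (fun m n => normEDS_net _ _ _ m n) (wSeq_neg W x y)
    (wSeq_zero W x y) (wSeq_one W x y) ?_ ?_ ?_ ?_ ?_ ?_ n
  · rw [e2, normEDS_two]
    exact two_nsmul_some_eq_zero_iff W h
  · rintro t ⟨y₂, h₂, H⟩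
    rw [e2] at H
    rw [normEDS_two, normEDS_three]
    exact two_nsmul_some W H
  · intro hβ
    rw [normEDS_two] at hβ
    rw [normEDS_three]
    exact Ψ₃_eval_ne_zero_of_two_torsion W h hβ
  · rintro - - t ⟨y₃, h₃, H⟩
    rw [e3] at H
    rw [normEDS_two, normEDS_three, normEDS_four]
    have := three_nsmul_some W H
    linear_combination this
  · intro hγ hβ
    rw [normEDS_three] at hγ
    rw [normEDS_two] at hβ
    rw [normEDS_four]
    exact mul_ne_zero (preΨ₄_eval_ne_zero_of_three_torsion W h.1 hβ hγ) hβ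
  · rintro Q t ⟨y₁, h₁, rfl⟩ htx
    obtain ⟨xp, yp, xm, ym, hp, hm, Hp, Hm, -⟩ := XAdd.add_sub_x h₁ h htx
    refine ⟨xp, xm, ⟨yp, hp, Hp⟩, ⟨ym, hm, Hm⟩, ?_⟩
    rw [normEDS_two, normEDS_three]
    exact (some_add_sub W htx Hp Hm).1

/-- `n • P = 0` iff `ψ_n(P) = 0`. -/
theorem zsmul_eq_zero_iff_wSeq {x y : F} (h : W.Nonsingular x y) (n : ℤ) :
    n • Point.some x y h = 0 ↔ wSeq W x y n = 0 :=
  (st_wSeq W h n).1

/-- `n • P = 0` iff `ψ_n(P) = 0` (bivariate division polynomial of Mathlib). -/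
theorem zsmul_eq_zero_iff_ψ {x y : F} (h : W.Nonsingular x y) (n : ℤ) :
    n • Point.some x y h = 0 ↔ (W.ψ n).evalEval x y = 0 := by
  rw [evalEval_ψ]
  exact zsmul_eq_zero_iff_wSeq W h n

/-- **`n • P = 0` iff `ΨSq_n(x(P)) = 0`.** -/
theorem zsmul_eq_zero_iff_ΨSq {x y : F} (h : W.Nonsingular x y) (n : ℤ) :
    n • Point.some x y h = 0 ↔ (W.ΨSq n).eval x = 0 := by
  rw [ΨSq_eval_eq W h.1, zsmul_eq_zero_iff_wSeq W h n]
  exact (pow_eq_zero_iff two_ne_zero).symm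

/-- For odd `n`: `n • P = 0` iff `preΨ_n(x(P)) = 0`. -/
theorem zsmul_eq_zero_iff_preΨ_of_odd {x y : F} (h : W.Nonsingular x y) {n : ℤ} (hn : Odd n) :
    n • Point.some x y h = 0 ↔ (W.preΨ n).eval x = 0 := by
  rw [zsmul_eq_zero_iff_wSeq W h n, wSeq_eq_preΨ W h.1,
    if_neg (Int.not_even_iff_odd.mpr hn), mul_one]

/-- **The `x`-coordinate of `n • P`**: if `n • P = (x', y')` then
`x' * ΨSq_n(x) = Φ_n(x)` (and `ΨSq_n(x) ≠ 0`), i.e. `x' = Φ_n(x) / ΨSq_n(x)`. -/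
theorem zsmul_some_x {x y x' y' : F} {h : W.Nonsingular x y} {h' : W.Nonsingular x' y'} {n : ℤ}
    (H : n • Point.some x y h = Point.some x' y' h') :
    x' * (W.ΨSq n).eval x = (W.Φ n).eval x := by
  have e := (st_wSeq W h n).2 x' ⟨y', h', H⟩
  rw [ΨSq_eval_eq W h.1, Φ_eval_eq W h.1]
  linear_combination e

/-- If `n • P ≠ 0` then `ΨSq_n(x) ≠ 0`. -/
theorem ΨSq_eval_ne_zero {x y x' y' : F} {h : W.Nonsingular x y} {h' : W.Nonsingular x' y'}
    {n : ℤ} (H : n • Point.some x y h = Point.some x' y' h') : (W.ΨSq n).eval x ≠ 0 := by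
  intro h0
  rw [(zsmul_eq_zero_iff_ΨSq W h n).mpr h0] at H
  exact Point.some_ne_zero h' H.symm

/-- `Φ_n` and `ΨSq_n` have no common zero at the `x`-coordinate of a nonsingular point. -/
theorem Φ_eval_ne_zero_of_ΨSq_eval_eq_zero {x y : F} (h : W.Nonsingular x y) {n : ℤ}
    (h0 : (W.ΨSq n).eval x = 0) : (W.Φ n).eval x ≠ 0 := by
  have hn : n • Point.some x y h = 0 := (zsmul_eq_zero_iff_ΨSq W h n).mpr h0
  have hw : wSeq W x y n = 0 := (zsmul_eq_zero_iff_wSeq W h n).mp hn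
  have hp : wSeq W x y (n + 1) ≠ 0 := by
    rw [Ne, ← zsmul_eq_zero_iff_wSeq W h (n + 1), add_smul, hn, zero_add, one_smul]
    exact Point.some_ne_zero h
  have hm : wSeq W x y (n - 1) ≠ 0 := by
    rw [Ne, ← zsmul_eq_zero_iff_wSeq W h (n - 1), sub_smul, hn, zero_sub, one_smul, neg_eq_zero]
    exact Point.some_ne_zero h
  rw [Φ_eval_eq W h.1, hw]
  simpa using mul_ne_zero hp hm

/-- Interface name (EC task 138): `n • P = 0 ↔ ΨSq_n(x(P)) = 0`. -/
theorem zsmul_eq_zero_iff {x y : F} (h : W.Nonsingular x y) (n : ℤ) :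
    n • Point.some x y h = 0 ↔ (W.ΨSq n).eval x = 0 :=
  zsmul_eq_zero_iff_ΨSq W h n

/-- Interface name (EC task 138): `x(n • P) * ΨSq_n(x(P)) = Φ_n(x(P))`. -/
theorem x_zsmul {x y : F} (h : W.Nonsingular x y) (n : ℤ) {x' y' : F} (h' : W.Nonsingular x' y')
    (hn : n • Point.some x y h = Point.some x' y' h') :
    x' * (W.ΨSq n).eval x = (W.Φ n).eval x :=
  zsmul_some_x W hn

end Fermat.Agent.Lib.ECTors
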