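/-
EC-TORS, unconditional statements: the torsion criterion `n • (x, y) = 0 ↔ ΨSq_n(x) = 0`
(from `MulFormula`) plugged into the counting results of `Card` (helper13).
-/
import Fermat.Agent.Lib.ECTors.MulFormula
import Fermat.Agent.Lib.ECTors.Card

set_option autoImplicit false

namespace Fermat.Agent.Lib.ECTors

open WeierstrassCurve WeierstrassCurve.Affine Polynomial

variable {K : Type*} [Field K] [DecidableEq K]

/-- The torsion criterion holds for every Weierstrass curve over a field. -/
theorem torsionCriterion (W : Affine K) : Card.TorsionCriterion W :=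
  fun _ _ h n => zsmul_eq_zero_iff_ΨSq W h n

/-- For odd `p` invertible in `K`, the `p`-torsion of a Weierstrass curve is finite. -/
theorem finite_torsionBy_of_odd (W : Affine K) {p : ℕ} (hodd : ¬ Even p) (hpK : (p : K) ≠ 0) :
    Finite (Submodule.torsionBy ℤ W.Point (p : ℤ)) :=
  Card.finite_torsionBy (torsionCriterion W) hodd hpK

/-- For odd `p` invertible in `K`, the `p`-torsion has at most `p ^ 2` elements. -/
theorem card_torsionBy_le_of_odd (W : Affine K) {p : ℕ} (hodd : ¬ Even p) (hpK : (p : K) ≠ 0) :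
    Nat.card (Submodule.torsionBy ℤ W.Point (p : ℤ)) ≤ p ^ 2 :=
  Card.card_torsionBy_le (torsionCriterion W) hodd hpK

/-- Over an algebraically closed field, an elliptic curve has a nonzero `p`-torsion point
(`p ≥ 3` odd, invertible in `K`). -/
theorem exists_torsion_point_of_odd [IsAlgClosed K] (W : Affine K) (hΔ : W.Δ ≠ 0) {p : ℕ}
    (hodd : ¬ Even p) (hp3 : 3 ≤ p) (hpK : (p : K) ≠ 0) :
    ∃ P : W.Point, P ≠ 0 ∧ (p : ℤ) • P = 0 :=
  Card.exists_torsion_point (torsionCriterion W) hΔ hodd hp3 hpK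

/-- Over an algebraically closed field, the `p`-torsion of an elliptic curve is nontrivial. -/
theorem nontrivial_torsionBy_of_odd [IsAlgClosed K] (W : Affine K) (hΔ : W.Δ ≠ 0) {p : ℕ}
    (hodd : ¬ Even p) (hp3 : 3 ≤ p) (hpK : (p : K) ≠ 0) :
    Nontrivial (Submodule.torsionBy ℤ W.Point (p : ℤ)) :=
  Card.nontrivial_torsionBy (torsionCriterion W) hΔ hodd hp3 hpK

/-- If the `p`-torsion has exactly `p ^ 2` elements then `preΨ_p = p ∏ (X - x)` over the
`x`-coordinates of the nonzero `p`-torsion points. -/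
theorem preΨ_eq_prod_of_card (W : Affine K) {p : ℕ} (hodd : ¬ Even p) (hpK : (p : K) ≠ 0)
    (hcard : Nat.card (Submodule.torsionBy ℤ W.Point (p : ℤ)) = p ^ 2) :
    (Card.torsionXs W p).card = (p ^ 2 - 1) / 2 ∧
      W.preΨ (p : ℤ) = C (p : K) * ∏ x ∈ Card.torsionXs W p, (X - C x) :=
  Card.preΨ_eq_prod (torsionCriterion W) hodd hpK hcard

end Fermat.Agent.Lib.ECTors
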