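import Fermat.Agent.Lib.ECTors.EDSNet

/-!
# Zero-crossing algebra for elliptic sequences (EC-TORS, abstract half of (C))

Let `w : ℤ → F` (`F` a domain) satisfy the elliptic-sequence relation `Net w m n` for all `m n`
(e.g. `w = normEDS b c d`, by `normEDS_net`).  If `w d = 0` and `c := w (d+1) * w (d-1) ≠ 0`:

* `net_quasi_period` : `w (m + d) * w (m - d) = -c * w m ^ 2`;
* `net_add_period_eq_zero_iff` : `w (m + d) = 0 ↔ w m = 0`, hence `net_eq_zero_iff_emod`,
  and `net_eq_zero_iff_dvd` : `w n = 0 ↔ d ∣ n` when `w k ≠ 0` for `0 < k < d`;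
* `net_period_X` : `w (n+1) * w (n-1) * w (n-d)^2 = w (n-d+1) * w (n-d-1) * w n ^ 2`
  (periodicity of `w(n+1)w(n-1)/w(n)²`; needs only `w d = 0`);
* `net_succ_ne_zero` : for `d ≥ 4` the hypothesis `w (d+1) ≠ 0` is automatic.
-/

namespace Fermat.Agent.Lib.ECTors

section Period

variable {F : Type*} [CommRing F] {w : ℤ → F}

/-- Quasi-period relation: if `w d = 0` then `w (m+d) w (m-d) = -w(d+1) w(d-1) w(m)²`. -/
theorem net_quasi_period (hnet : ∀ m n, Net w m n) {d : ℤ} (hd : w d = 0) (m : ℤ) :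
    w (m + d) * w (m - d) = -(w (d + 1) * w (d - 1)) * w m ^ 2 := by
  have h := hnet m d
  unfold Net at h
  rw [h, hd]
  ring

/-- Periodicity of `w(n+1) w(n-1) / w(n)²` modulo a zero `d` of `w`, in polynomial form. -/
theorem net_period_X (hnet : ∀ m n, Net w m n) {d : ℤ} (hd : w d = 0) (n : ℤ) :
    w (n + 1) * w (n - 1) * w (n - d) ^ 2 = w (n - d + 1) * w (n - d - 1) * w n ^ 2 := by
  have h := hnet n (n - d)
  unfold Net at h
  rw [show n - (n - d) = d by ring, hd, mul_zero] at h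
  linear_combination -h

/-- Periodicity of `w(n+1) w(n-1) / w(n)²`, shifted form. -/
theorem net_period_X' (hnet : ∀ m n, Net w m n) {d : ℤ} (hd : w d = 0) (n : ℤ) :
    w (n + d + 1) * w (n + d - 1) * w n ^ 2 = w (n + 1) * w (n - 1) * w (n + d) ^ 2 := by
  have h := net_period_X hnet hd (n + d)
  rw [show n + d - d = n by ring] at h
  exact h

variable [IsDomain F]

/-- If `w d = 0` and `w (d+1) w (d-1) ≠ 0` then the zero set of `w` is stable under `+ d`. -/
theorem net_add_period_eq_zero_iff (hnet : ∀ m n, Net w m n) {d : ℤ} (hd : w d = 0)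
    (hc : w (d + 1) * w (d - 1) ≠ 0) (m : ℤ) : w (m + d) = 0 ↔ w m = 0 := by
  constructor
  · intro h
    have h1 := net_quasi_period hnet hd m
    rw [h, zero_mul] at h1
    have h2 : w m ^ 2 = 0 := by
      rcases mul_eq_zero.mp h1.symm with h3 | h3
      · exact absurd (neg_eq_zero.mp h3) hc
      · exact h3
    exact pow_eq_zero_iff (two_ne_zero) |>.mp h2
  · intro h
    have h1 := net_quasi_period hnet hd (m + d)
    rw [show m + d - d = m by ring, h, mul_zero] at h1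
    have h2 : w (m + d) ^ 2 = 0 := by
      rcases mul_eq_zero.mp h1.symm with h3 | h3
      · exact absurd (neg_eq_zero.mp h3) hc
      · exact h3
    exact pow_eq_zero_iff (two_ne_zero) |>.mp h2

/-- The zero set of `w` is stable under adding multiples of `d`. -/
theorem net_add_mul_period_eq_zero_iff (hnet : ∀ m n, Net w m n) {d : ℤ} (hd : w d = 0)
    (hc : w (d + 1) * w (d - 1) ≠ 0) (m k : ℤ) : w (m + k * d) = 0 ↔ w m = 0 := by
  induction k using Int.induction_on with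
  | zero => simp
  | succ k ih =>
    rw [show m + ((k : ℤ) + 1) * d = (m + k * d) + d by ring,
      net_add_period_eq_zero_iff hnet hd hc, ih]
  | pred k ih =>
    rw [← ih, ← net_add_period_eq_zero_iff hnet hd hc (m + (-(k : ℤ) - 1) * d)]
    congr! 2
    ring

/-- `w n = 0 ↔ w (n % d) = 0`. -/
theorem net_eq_zero_iff_emod (hnet : ∀ m n, Net w m n) {d : ℤ} (hd : w d = 0)
    (hc : w (d + 1) * w (d - 1) ≠ 0) (n : ℤ) : w n = 0 ↔ w (n % d) = 0 := by
  conv_lhs => rw [← Int.emod_add_mul_ediv n d, mul_comm d]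
  exact net_add_mul_period_eq_zero_iff hnet hd hc _ _

/-- **Rank of apparition**: if `d > 0` is the first positive zero of `w` and `w (d+1) ≠ 0`, then
`w n = 0 ↔ d ∣ n`. -/
theorem net_eq_zero_iff_dvd (hnet : ∀ m n, Net w m n) (h0 : w 0 = 0) {d : ℤ} (hd2 : 2 ≤ d)
    (hd : w d = 0) (hlt : ∀ k, 0 < k → k < d → w k ≠ 0) (hd1 : w (d + 1) ≠ 0) (n : ℤ) :
    w n = 0 ↔ d ∣ n := by
  have hc : w (d + 1) * w (d - 1) ≠ 0 := mul_ne_zero hd1 (hlt _ (by omega) (by omega))
  rw [net_eq_zero_iff_emod hnet hd hc n, Int.dvd_iff_emod_eq_zero]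
  have hnn : 0 ≤ n % d := Int.emod_nonneg _ (by omega)
  have hlt' : n % d < d := Int.emod_lt_of_pos _ (by omega)
  constructor
  · intro h
    by_contra hne
    exact hlt (n % d) (by omega) hlt' h
  · intro h
    rw [h, h0]

/-- For `d ≥ 4`: if `w d = 0`, `w 1 = 1`, `w 3 ≠ 0` and `w (d-1) ≠ 0` then `w (d+1) ≠ 0`
(and `w (d-3) ≠ 0`). -/
theorem net_succ_ne_zero (hnet : ∀ m n, Net w m n) (h1 : w 1 = 1) {d : ℤ} (hd : w d = 0)
    (h3 : w 3 ≠ 0) (hd' : w (d - 1) ≠ 0) : w (d + 1) ≠ 0 ∧ w (d - 3) ≠ 0 := by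
  have h := hnet (d - 1) 2
  unfold Net at h
  rw [show d - 1 + 2 = d + 1 by ring, show d - 1 - 2 = d - 3 by ring,
    show d - 1 + 1 = d by ring, hd, show (2 : ℤ) + 1 = 3 by ring, show (2 : ℤ) - 1 = 1 by ring,
    h1] at h
  have h' : w (d + 1) * w (d - 3) = -(w 3 * w (d - 1) ^ 2) := by
    rw [h]
    ring
  have hne : w (d + 1) * w (d - 3) ≠ 0 := by
    rw [h']
    exact neg_ne_zero.mpr (mul_ne_zero h3 (pow_ne_zero 2 hd'))
  exact ⟨left_ne_zero_of_mul hne, right_ne_zero_of_mul hne⟩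

end Period

end Fermat.Agent.Lib.ECTors
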