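import Mathlib

/-!
# `x`-coordinate formulas for the group law of a Weierstrass curve (EC-TORS, part (B))

Let `P = (x, y)` be a point of a Weierstrass curve `W` and put
`β := ψ₂(P) = 2y + a₁x + a₃`, `γ := Ψ₃(x)`, `δ := preΨ₄(x)`, `e := 6x² + b₂x + b₄`.

* `Ψ₃_eval_eq` : `Ψ₃(x) = -W_X² + a₁ W_X W_Y + (3x + a₂) W_Y² - (12x + b₂) W(x, y)` (any ring).
* `Ψ₃_mul_eq` : `(6X² + b₂X + b₄) Ψ₃ = preΨ₄ + Ψ₂Sq²` in `R[X]`.
* `dblX_sub_mul` / `two_nsmul_some` : duplication, `(x(2P) - x) β² = -γ`.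
* `addX_mul_addX_neg` / `add_sub_some` : for `P₁ = (x₁, y₁)` with `x₁ ≠ x`,
  `(x(P₁+P) - x)(x(P₁-P) - x)(x₁ - x)² = -((x₁ - x) β² + γ)` and
  `((x(P₁+P) - x) + (x(P₁-P) - x))(x₁ - x)² = (x₁ - x) e + β²`.
* `three_nsmul_some` : tripling, `(x(3P) - x) γ² = -δ β²`.
* `Ψ₃_eval_ne_zero_of_two_torsion`, `preΨ₄_eval_ne_zero_of_three_torsion` : the non-vanishing
  statements needed to cross the zeros of the division polynomials at points of order 2 and 3.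
-/

open WeierstrassCurve WeierstrassCurve.Affine Polynomial

namespace Fermat.Agent.Lib.ECTors

section Ring

variable {R : Type*} [CommRing R] (W : WeierstrassCurve R)

/-- The key identity behind all `x`-coordinate formulas: `Ψ₃(x)` in terms of the partial
derivatives of the Weierstrass polynomial at `(x, y)`. -/
theorem Ψ₃_eval_eq (x y : R) :
    W.Ψ₃.eval x = -(W.toAffine.polynomialX.evalEval x y) ^ 2
      + W.a₁ * W.toAffine.polynomialX.evalEval x y * W.toAffine.polynomialY.evalEval x y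
      + (3 * x + W.a₂) * (W.toAffine.polynomialY.evalEval x y) ^ 2
      - (12 * x + W.b₂) * W.toAffine.polynomial.evalEval x y := by
  simp only [WeierstrassCurve.Ψ₃, WeierstrassCurve.b₂, WeierstrassCurve.b₄, WeierstrassCurve.b₆,
    WeierstrassCurve.b₈, evalEval_polynomialX, evalEval_polynomialY, evalEval_polynomial]
  simp only [eval_add, eval_mul, eval_pow, eval_C, eval_X, eval_ofNat]
  ring

/-- `Ψ₃(x)` written out. -/
theorem Ψ₃_eval (x : R) :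
    W.Ψ₃.eval x = 3 * x ^ 4 + W.b₂ * x ^ 3 + 3 * W.b₄ * x ^ 2 + 3 * W.b₆ * x + W.b₈ := by
  simp only [WeierstrassCurve.Ψ₃]
  simp only [eval_add, eval_mul, eval_pow, eval_C, eval_X, eval_ofNat]

/-- `Ψ₂Sq(x) = ψ₂(x, y)² - 4 W(x, y)`. -/
theorem Ψ₂Sq_eval_eq (x y : R) :
    W.Ψ₂Sq.eval x = (W.toAffine.polynomialY.evalEval x y) ^ 2
      - 4 * W.toAffine.polynomial.evalEval x y := by
  simp only [WeierstrassCurve.Ψ₂Sq, WeierstrassCurve.b₂, WeierstrassCurve.b₄, WeierstrassCurve.b₆,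
    evalEval_polynomialY, evalEval_polynomial]
  simp only [eval_add, eval_mul, eval_pow, eval_C, eval_X]
  ring

/-- On the curve, `Ψ₂Sq(x) = ψ₂(x, y)²`. -/
theorem Ψ₂Sq_eval_of_equation {x y : R} (h : W.toAffine.Equation x y) :
    W.Ψ₂Sq.eval x = (2 * y + W.a₁ * x + W.a₃) ^ 2 := by
  rw [Ψ₂Sq_eval_eq W x y, show W.toAffine.polynomial.evalEval x y = 0 from h,
    evalEval_polynomialY]
  ring

/-- `ψ₂(x, y) = 2y + a₁x + a₃`. -/
theorem ψ₂_evalEval (x y : R) : W.ψ₂.evalEval x y = 2 * y + W.a₁ * x + W.a₃ := by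
  rw [WeierstrassCurve.ψ₂, evalEval_polynomialY]

/-- The polynomial identity `(6X² + b₂X + b₄) Ψ₃ = preΨ₄ + Ψ₂Sq²`. -/
theorem Ψ₃_mul_eq :
    (6 * X ^ 2 + C W.b₂ * X + C W.b₄) * W.Ψ₃ = W.preΨ₄ + W.Ψ₂Sq ^ 2 := by
  have h : (C (4 * W.b₈) : R[X]) = C (W.b₂ * W.b₆ - W.b₄ ^ 2) := congrArg C W.b_relation
  simp only [WeierstrassCurve.Ψ₃, WeierstrassCurve.preΨ₄, WeierstrassCurve.Ψ₂Sq]
  simp only [map_ofNat, C_sub, C_mul, C_pow] at h ⊢
  linear_combination (-(X : R[X]) ^ 2) * h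

/-- The identity `(6x² + b₂x + b₄) Ψ₃(x) = preΨ₄(x) + Ψ₂Sq(x)²`, evaluated. -/
theorem Ψ₃_mul_eq_eval (x : R) :
    (6 * x ^ 2 + W.b₂ * x + W.b₄) * W.Ψ₃.eval x = W.preΨ₄.eval x + W.Ψ₂Sq.eval x ^ 2 := by
  have h := congrArg (Polynomial.eval x) (Ψ₃_mul_eq W)
  simpa only [eval_add, eval_mul, eval_pow, eval_C, eval_X, eval_ofNat] using h

/-- On the curve: `(6x² + b₂x + b₄) Ψ₃(x) = preΨ₄(x) + ψ₂(x, y)⁴`. -/
theorem Ψ₃_mul_eq_of_equation {x y : R} (h : W.toAffine.Equation x y) :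
    (6 * x ^ 2 + W.b₂ * x + W.b₄) * W.Ψ₃.eval x
      = W.preΨ₄.eval x + (2 * y + W.a₁ * x + W.a₃) ^ 4 := by
  rw [Ψ₃_mul_eq_eval, Ψ₂Sq_eval_of_equation W h]
  ring

/-- At a point of the curve with `ψ₂ = 0` we have `Ψ₃(x) = -W_X(x, y)²`. -/
theorem Ψ₃_eval_of_ψ₂_eq_zero {x y : R} (h : W.toAffine.Equation x y)
    (hβ : 2 * y + W.a₁ * x + W.a₃ = 0) :
    W.Ψ₃.eval x = -(W.toAffine.polynomialX.evalEval x y) ^ 2 := by
  rw [Ψ₃_eval_eq W x y, show W.toAffine.polynomial.evalEval x y = 0 from h,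
    evalEval_polynomialY, hβ]
  ring

end Ring

section Field

variable {F : Type*} [Field F] (W : Affine F)

/-- At a nonsingular point with `ψ₂ = 0` (a point of order two), `Ψ₃(x) ≠ 0`. -/
theorem Ψ₃_eval_ne_zero_of_two_torsion {x y : F} (h : W.Nonsingular x y)
    (hβ : 2 * y + W.a₁ * x + W.a₃ = 0) : W.Ψ₃.eval x ≠ 0 := by
  rw [Ψ₃_eval_of_ψ₂_eq_zero W h.1 hβ, neg_ne_zero]
  refine pow_ne_zero 2 ?_
  rcases h.2 with h2 | h2
  · exact h2
  · exact absurd (by rw [evalEval_polynomialY]; exact hβ) h2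

/-- At a point of the curve with `ψ₂ ≠ 0` and `Ψ₃(x) = 0` (a point of order three),
`preΨ₄(x) ≠ 0`. -/
theorem preΨ₄_eval_ne_zero_of_three_torsion {x y : F} (h : W.Equation x y)
    (hβ : 2 * y + W.a₁ * x + W.a₃ ≠ 0) (hγ : W.Ψ₃.eval x = 0) : W.preΨ₄.eval x ≠ 0 := by
  have h4 := Ψ₃_mul_eq_of_equation W h
  rw [hγ, mul_zero] at h4
  intro h0
  rw [h0, zero_add] at h4
  exact pow_ne_zero 4 hβ h4.symm

variable [DecidableEq F]

/-- Secant case: `(x(P₁ + P) - x(P)) (x₁ - x)²` as a polynomial expression. -/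
theorem addX_sub_mul_sq {x₁ x : F} (y₁ y : F) (hx : x₁ ≠ x) :
    (W.addX x₁ x (W.slope x₁ x y₁ y) - x) * (x₁ - x) ^ 2
      = (y₁ - y) ^ 2 + W.a₁ * (y₁ - y) * (x₁ - x) - (W.a₂ + x₁ + 2 * x) * (x₁ - x) ^ 2 := by
  have hu : x₁ - x ≠ 0 := sub_ne_zero.mpr hx
  rw [slope_of_X_ne hx]
  simp only [addX]
  field_simp
  ring

/-- **Product formula** (raw form): for `P₁ = (x₁, y₁)`, `P = (x, y)` on the curve with
`x₁ ≠ x`: `(x(P₁+P) - x)(x(P₁-P) - x)(x₁ - x)² = -((x₁ - x) ψ₂(P)² + Ψ₃(x))`. -/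
theorem addX_mul_addX_neg {x₁ y₁ x y : F} (h₁ : W.Equation x₁ y₁) (h : W.Equation x y)
    (hx : x₁ ≠ x) :
    (W.addX x₁ x (W.slope x₁ x y₁ y) - x) * (W.addX x₁ x (W.slope x₁ x y₁ (W.negY x y)) - x)
        * (x₁ - x) ^ 2
      = -((x₁ - x) * (2 * y + W.a₁ * x + W.a₃) ^ 2 + W.Ψ₃.eval x) := by
  have hu : x₁ - x ≠ 0 := sub_ne_zero.mpr hx
  have hp := addX_sub_mul_sq W y₁ y hx
  have hm := addX_sub_mul_sq W y₁ (W.negY x y) hx
  have key : ((y₁ - y) ^ 2 + W.a₁ * (y₁ - y) * (x₁ - x) - (W.a₂ + x₁ + 2 * x) * (x₁ - x) ^ 2)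
      * ((y₁ - W.negY x y) ^ 2 + W.a₁ * (y₁ - W.negY x y) * (x₁ - x)
          - (W.a₂ + x₁ + 2 * x) * (x₁ - x) ^ 2)
      = -((x₁ - x) * (2 * y + W.a₁ * x + W.a₃) ^ 2 + W.Ψ₃.eval x) * (x₁ - x) ^ 2 := by
    rw [Ψ₃_eval_eq W x y]
    rw [equation_iff] at h₁ h
    simp only [negY, evalEval_polynomialX, evalEval_polynomialY, evalEval_polynomial,
      WeierstrassCurve.b₂]
    linear_combination
      (((y₁ - y) ^ 2 + W.a₁ * (y₁ - y) * (x₁ - x) - (W.a₂ + x₁ + 2 * x) * (x₁ - x) ^ 2)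
        - ((x₁ - x) * (W.a₁ * y - (3 * x ^ 2 + 2 * W.a₂ * x + W.a₄))
            - W.a₁ * (x₁ - x) * (2 * y + W.a₁ * x + W.a₃)
            - (y₁ - y + (2 * y + W.a₁ * x + W.a₃)) * (2 * y + W.a₁ * x + W.a₃))
        - (2 * y + W.a₁ * x + W.a₃) ^ 2) * h₁
      + (-(((y₁ - y) ^ 2 + W.a₁ * (y₁ - y) * (x₁ - x) - (W.a₂ + x₁ + 2 * x) * (x₁ - x) ^ 2)
        - ((x₁ - x) * (W.a₁ * y - (3 * x ^ 2 + 2 * W.a₂ * x + W.a₄))
            - W.a₁ * (x₁ - x) * (2 * y + W.a₁ * x + W.a₃)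
            - (y₁ - y + (2 * y + W.a₁ * x + W.a₃)) * (2 * y + W.a₁ * x + W.a₃))
        - (2 * y + W.a₁ * x + W.a₃) ^ 2)
        - (12 * x + (W.a₁ ^ 2 + 4 * W.a₂)) * (x₁ - x) ^ 2) * h
  apply mul_right_cancel₀ (pow_ne_zero 2 hu)
  calc (W.addX x₁ x (W.slope x₁ x y₁ y) - x) * (W.addX x₁ x (W.slope x₁ x y₁ (W.negY x y)) - x)
        * (x₁ - x) ^ 2 * (x₁ - x) ^ 2
      = ((W.addX x₁ x (W.slope x₁ x y₁ y) - x) * (x₁ - x) ^ 2)
        * ((W.addX x₁ x (W.slope x₁ x y₁ (W.negY x y)) - x) * (x₁ - x) ^ 2) := by ring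
    _ = _ := by rw [hp, hm, key]

/-- **Sum formula** (raw form): for `P₁ = (x₁, y₁)`, `P = (x, y)` on the curve with `x₁ ≠ x`:
`((x(P₁+P) - x) + (x(P₁-P) - x))(x₁ - x)² = (x₁ - x)(6x² + b₂x + b₄) + ψ₂(P)²`. -/
theorem addX_add_addX_neg {x₁ y₁ x y : F} (h₁ : W.Equation x₁ y₁) (h : W.Equation x y)
    (hx : x₁ ≠ x) :
    ((W.addX x₁ x (W.slope x₁ x y₁ y) - x) + (W.addX x₁ x (W.slope x₁ x y₁ (W.negY x y)) - x))
        * (x₁ - x) ^ 2
      = (x₁ - x) * (6 * x ^ 2 + W.b₂ * x + W.b₄) + (2 * y + W.a₁ * x + W.a₃) ^ 2 := by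
  have hp := addX_sub_mul_sq W y₁ y hx
  have hm := addX_sub_mul_sq W y₁ (W.negY x y) hx
  rw [add_mul, hp, hm]
  rw [equation_iff] at h₁ h
  simp only [negY, WeierstrassCurve.b₂, WeierstrassCurve.b₄]
  linear_combination 2 * h₁ - 2 * h

/-- **Duplication formula** (raw form): `(x(2P) - x) ψ₂(P)² = -Ψ₃(x)`. -/
theorem dblX_sub_mul {x y : F} (h : W.Equation x y) (hy : y ≠ W.negY x y) :
    (W.addX x x (W.slope x x y y) - x) * (2 * y + W.a₁ * x + W.a₃) ^ 2 = -(W.Ψ₃.eval x) := by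
  have hβ : 2 * y + W.a₁ * x + W.a₃ ≠ 0 := by
    intro h0
    apply hy
    simp only [negY]
    linear_combination h0
  have hs : W.slope x x y y
      = (3 * x ^ 2 + 2 * W.a₂ * x + W.a₄ - W.a₁ * y) / (2 * y + W.a₁ * x + W.a₃) := by
    rw [slope_of_Y_ne rfl hy]
    congr 1
    simp only [negY]
    ring
  have key : ∀ n β : F, β ≠ 0 →
      ((n / β) ^ 2 + W.a₁ * (n / β) - W.a₂ - x - x - x) * β ^ 2
        = n ^ 2 + W.a₁ * n * β - (W.a₂ + 3 * x) * β ^ 2 := by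
    intro n β hβ
    field_simp
    ring
  rw [hs]
  simp only [addX]
  rw [key _ _ hβ, Ψ₃_eval_eq W x y, show W.polynomial.evalEval x y = 0 from h,
    evalEval_polynomialX, evalEval_polynomialY]
  ring

/-! ### Point-level statements -/

/-- `P + P = 0` iff `ψ₂(P) = 0`. -/
theorem some_add_self_eq_zero_iff {x y : F} (h : W.Nonsingular x y) :
    Point.some x y h + Point.some x y h = 0 ↔ 2 * y + W.a₁ * x + W.a₃ = 0 := by
  constructor
  · intro H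
    by_contra hβ
    have hy : y ≠ W.negY x y := by
      intro h0
      apply hβ
      simp only [negY] at h0
      linear_combination h0
    rw [Point.add_self_of_Y_ne hy] at H
    exact Point.some_ne_zero _ H
  · intro hβ
    refine Point.add_self_of_Y_eq ?_
    simp only [negY]
    linear_combination hβ

/-- **Duplication formula**: if `P + P = (x₂, y₂)` then `(x₂ - x) ψ₂(P)² = -Ψ₃(x)`. -/
theorem some_add_self {x y x₂ y₂ : F} {h : W.Nonsingular x y} {h₂ : W.Nonsingular x₂ y₂}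
    (H : Point.some x y h + Point.some x y h = Point.some x₂ y₂ h₂) :
    (x₂ - x) * (2 * y + W.a₁ * x + W.a₃) ^ 2 = -(W.Ψ₃.eval x) := by
  have hy : y ≠ W.negY x y := by
    intro h0
    rw [Point.add_self_of_Y_eq h0] at H
    exact Point.some_ne_zero _ H.symm
  rw [Point.add_self_of_Y_ne hy] at H
  have hx : W.addX x x (W.slope x x y y) = x₂ := by
    injection H
  rw [← hx]
  exact dblX_sub_mul W h.1 hy

/-- If `x₁ ≠ x` then `P₁ + P ≠ 0`. -/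
theorem some_add_ne_zero {x₁ y₁ x y : F} {h₁ : W.Nonsingular x₁ y₁} {h : W.Nonsingular x y}
    (hx : x₁ ≠ x) : Point.some x₁ y₁ h₁ + Point.some x y h ≠ 0 := by
  rw [Point.add_of_X_ne hx]
  exact Point.some_ne_zero _

/-- If `x₁ ≠ x` then `P₁ - P ≠ 0`. -/
theorem some_sub_ne_zero {x₁ y₁ x y : F} {h₁ : W.Nonsingular x₁ y₁} {h : W.Nonsingular x y}
    (hx : x₁ ≠ x) : Point.some x₁ y₁ h₁ - Point.some x y h ≠ 0 := by
  rw [sub_eq_add_neg, Point.neg_some, Point.add_of_X_ne hx]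
  exact Point.some_ne_zero _

/-- **Product and sum formulas**: for `P₁ = (x₁, y₁)`, `P = (x, y)` with `x₁ ≠ x`,
`P₁ + P = (x₊, _)`, `P₁ - P = (x₋, _)`:
`(x₊ - x)(x₋ - x)(x₁ - x)² = -((x₁ - x) ψ₂(P)² + Ψ₃(x))` and
`((x₊ - x) + (x₋ - x))(x₁ - x)² = (x₁ - x)(6x² + b₂x + b₄) + ψ₂(P)²`. -/
theorem some_add_sub {x₁ y₁ x y xp yp xm ym : F} {h₁ : W.Nonsingular x₁ y₁}
    {h : W.Nonsingular x y} {hp : W.Nonsingular xp yp} {hm : W.Nonsingular xm ym} (hx : x₁ ≠ x)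
    (Hp : Point.some x₁ y₁ h₁ + Point.some x y h = Point.some xp yp hp)
    (Hm : Point.some x₁ y₁ h₁ - Point.some x y h = Point.some xm ym hm) :
    (xp - x) * (xm - x) * (x₁ - x) ^ 2
        = -((x₁ - x) * (2 * y + W.a₁ * x + W.a₃) ^ 2 + W.Ψ₃.eval x) ∧
      ((xp - x) + (xm - x)) * (x₁ - x) ^ 2
        = (x₁ - x) * (6 * x ^ 2 + W.b₂ * x + W.b₄) + (2 * y + W.a₁ * x + W.a₃) ^ 2 := by
  rw [Point.add_of_X_ne hx] at Hp
  rw [sub_eq_add_neg, Point.neg_some, Point.add_of_X_ne hx] at Hm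
  have hxp : W.addX x₁ x (W.slope x₁ x y₁ y) = xp := by
    injection Hp
  have hxm : W.addX x₁ x (W.slope x₁ x y₁ (W.negY x y)) = xm := by
    injection Hm
  rw [← hxp, ← hxm]
  exact ⟨addX_mul_addX_neg W h₁.1 h.1 hx, addX_add_addX_neg W h₁.1 h.1 hx⟩

/-- `2 • P = 0` iff `ψ₂(P) = 0`. -/
theorem two_nsmul_some_eq_zero_iff {x y : F} (h : W.Nonsingular x y) :
    (2 : ℕ) • Point.some x y h = 0 ↔ 2 * y + W.a₁ * x + W.a₃ = 0 := by
  rw [two_nsmul]
  exact some_add_self_eq_zero_iff W h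

/-- **Duplication formula**: if `2 • P = (x₂, y₂)` then `(x₂ - x) ψ₂(P)² = -Ψ₃(x)`. -/
theorem two_nsmul_some {x y x₂ y₂ : F} {h : W.Nonsingular x y} {h₂ : W.Nonsingular x₂ y₂}
    (H : (2 : ℕ) • Point.some x y h = Point.some x₂ y₂ h₂) :
    (x₂ - x) * (2 * y + W.a₁ * x + W.a₃) ^ 2 = -(W.Ψ₃.eval x) := by
  rw [two_nsmul] at H
  exact some_add_self W H

/-- `3 • P = 0` iff `Ψ₃(x) = 0`. -/
theorem three_nsmul_some_eq_zero_iff {x y : F} (h : W.Nonsingular x y) :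
    (3 : ℕ) • Point.some x y h = 0 ↔ W.Ψ₃.eval x = 0 := by
  have h3 : (3 : ℕ) • Point.some x y h
      = (Point.some x y h + Point.some x y h) + Point.some x y h := by
    rw [succ_nsmul, two_nsmul]
  rw [h3]
  constructor
  · intro H
    have H2 : Point.some x y h + Point.some x y h = -Point.some x y h :=
      eq_neg_of_add_eq_zero_left H
    rw [Point.neg_some] at H2
    have := some_add_self W H2
    rw [sub_self, zero_mul] at this
    exact neg_eq_zero.mp this.symm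
  · intro hγ
    by_cases hβ : 2 * y + W.a₁ * x + W.a₃ = 0
    · exact absurd hγ (Ψ₃_eval_ne_zero_of_two_torsion W h hβ)
    · have hne : Point.some x y h + Point.some x y h ≠ 0 := fun H =>
        hβ ((some_add_self_eq_zero_iff W h).mp H)
      obtain ⟨x₂, y₂, h₂, H2⟩ : ∃ x₂ y₂, ∃ h₂ : W.Nonsingular x₂ y₂,
          Point.some x y h + Point.some x y h = Point.some x₂ y₂ h₂ := by
        rcases hP : Point.some x y h + Point.some x y h with _ | ⟨x₂, y₂, h₂⟩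
        · exact absurd hP hne
        · exact ⟨x₂, y₂, h₂, rfl⟩
      have h2 := some_add_self W H2
      rw [hγ, neg_zero] at h2
      have hx : x₂ = x := by
        rcases mul_eq_zero.mp h2 with h0 | h0
        · exact sub_eq_zero.mp h0
        · exact absurd (pow_eq_zero_iff two_ne_zero |>.mp h0) hβ
      rcases (Point.X_eq_iff (h₁ := h₂) (h₂ := h)).mp hx with H3 | H3
      · -- `2P = P` is impossible
        rw [H3] at H2
        exact absurd (add_eq_right.mp H2) (Point.some_ne_zero h)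
      · rw [H2, H3]
        exact neg_add_cancel _

/-- **Tripling formula**: if `3 • P = (x₃, y₃)` then `(x₃ - x) Ψ₃(x)² = -preΨ₄(x) ψ₂(P)²`. -/
theorem three_nsmul_some {x y x₃ y₃ : F} {h : W.Nonsingular x y} {h₃ : W.Nonsingular x₃ y₃}
    (H : (3 : ℕ) • Point.some x y h = Point.some x₃ y₃ h₃) :
    (x₃ - x) * (W.Ψ₃.eval x) ^ 2 = -(W.preΨ₄.eval x * (2 * y + W.a₁ * x + W.a₃) ^ 2) := by
  have hγ : W.Ψ₃.eval x ≠ 0 := fun h0 => by
    rw [(three_nsmul_some_eq_zero_iff W h).mpr h0] at H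
    exact Point.some_ne_zero _ H.symm
  have h3 : (3 : ℕ) • Point.some x y h
      = (Point.some x y h + Point.some x y h) + Point.some x y h := by
    rw [succ_nsmul, two_nsmul]
  rw [h3] at H
  by_cases hβ : 2 * y + W.a₁ * x + W.a₃ = 0
  · rw [(some_add_self_eq_zero_iff W h).mpr hβ, zero_add] at H
    have hx : x = x₃ := by
      injection H
    rw [← hx, hβ]
    ring
  · have hne : Point.some x y h + Point.some x y h ≠ 0 := fun H0 =>
      hβ ((some_add_self_eq_zero_iff W h).mp H0)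
    obtain ⟨x₂, y₂, h₂, H2⟩ : ∃ x₂ y₂, ∃ h₂ : W.Nonsingular x₂ y₂,
        Point.some x y h + Point.some x y h = Point.some x₂ y₂ h₂ := by
      rcases hP : Point.some x y h + Point.some x y h with _ | ⟨x₂, y₂, h₂⟩
      · exact absurd hP hne
      · exact ⟨x₂, y₂, h₂, rfl⟩
    have h2 := some_add_self W H2
    have hx : x₂ ≠ x := by
      intro h0
      rw [h0, sub_self, zero_mul] at h2
      exact hγ (neg_eq_zero.mp h2.symm)
    rw [H2] at H
    have Hm : Point.some x₂ y₂ h₂ - Point.some x y h = Point.some x y h := by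
      rw [← H2, add_sub_cancel_right]
    obtain ⟨-, hsum⟩ := some_add_sub W hx H Hm
    rw [sub_self, add_zero] at hsum
    have h4 := Ψ₃_mul_eq_of_equation W h.1
    have hb : (x₂ - x) * (2 * y + W.a₁ * x + W.a₃) ^ 2 = -(W.Ψ₃.eval x) := h2
    have e1 : (x₃ - x) * (W.Ψ₃.eval x) ^ 2
        = ((x₃ - x) * (x₂ - x) ^ 2) * (2 * y + W.a₁ * x + W.a₃) ^ 4 := by
      have : (W.Ψ₃.eval x) ^ 2 = ((x₂ - x) * (2 * y + W.a₁ * x + W.a₃) ^ 2) ^ 2 := by
        rw [hb]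
        ring
      rw [this]
      ring
    rw [e1, hsum]
    linear_combination ((2 * y + W.a₁ * x + W.a₃) ^ 2 * (6 * x ^ 2 + W.b₂ * x + W.b₄)) * hb
      - (2 * y + W.a₁ * x + W.a₃) ^ 2 * h4

end Field

end Fermat.Agent.Lib.ECTors
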